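import Mathlib
import Fermat.Prelude.Def_AlgebraicCurve_IsCurveOver

/-!
# Elementary facts on places of a field over a constant field

Order functions, comparison of a place with a further valuation, and places of finite
extensions of `K(y)`.
-/

set_option autoImplicit false

noncomputable section

namespace Fermat.Agent.MFGenus

open AlgebraicCurve IsDedekindDomain IsLocalRing WithZero

variable {K F : Type*} [Field K] [Field F] [Algebra K F]

/-- `o` behaves like an integer valued valuation on the nonzero elements of `F`. -/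
structure IsOrd (o : F → ℤ) : Prop where
  map_mul : ∀ f g : F, f ≠ 0 → g ≠ 0 → o (f * g) = o f + o g
  map_add : ∀ f g : F, f ≠ 0 → g ≠ 0 → f + g ≠ 0 → min (o f) (o g) ≤ o (f + g)

namespace IsOrd

variable {o : F → ℤ} (h : IsOrd o)

include h

theorem map_one : o 1 = 0 := by
  have := h.map_mul 1 1 one_ne_zero one_ne_zero
  rw [one_mul] at this; omega

theorem map_inv {f : F} (hf : f ≠ 0) : o f⁻¹ = -o f := by
  have := h.map_mul f f⁻¹ hf (inv_ne_zero hf)
  rw [mul_inv_cancel₀ hf, h.map_one] at this; omega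

theorem map_pow {f : F} (hf : f ≠ 0) (n : ℕ) : o (f ^ n) = n * o f := by
  induction n with
  | zero => simp [h.map_one]
  | succ n ih => rw [pow_succ, h.map_mul _ _ (pow_ne_zero n hf) hf, ih]; push_cast; ring

theorem map_zpow {f : F} (hf : f ≠ 0) (n : ℤ) : o (f ^ n) = n * o f := by
  cases n with
  | ofNat n => simpa using h.map_pow hf n
  | negSucc n =>
    rw [zpow_negSucc, h.map_inv (pow_ne_zero _ hf), h.map_pow hf, Int.negSucc_eq]
    push_cast; ring

theorem map_div {f g : F} (hf : f ≠ 0) (hg : g ≠ 0) : o (f / g) = o f - o g := by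
  rw [div_eq_mul_inv, h.map_mul f g⁻¹ hf (inv_ne_zero hg), h.map_inv hg]; ring

end IsOrd

theorem ord_nonneg_of_mem (v : Place K F) {f : F} (hf : f ∈ v.toValuationSubring) :
    0 ≤ v.ord f := by
  rcases eq_or_ne f 0 with rfl | h
  · simp
  rw [Place.ord, neg_nonneg, WithZero.log_le_iff_le_exp (v.adicValuation_ne_zero h)]
  rw [v.adicValuation_coe ⟨f, hf⟩]
  exact HeightOneSpectrum.intValuation_le_one _ _

theorem mem_iff_ord_nonneg (v : Place K F) {f : F} (hf : f ≠ 0) :
    f ∈ v.toValuationSubring ↔ 0 ≤ v.ord f := by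
  refine ⟨ord_nonneg_of_mem v, fun h => ?_⟩
  obtain ⟨π, hπ⟩ := IsDiscreteValuationRing.exists_irreducible v.toValuationSubring
  obtain ⟨u, hu⟩ := v.exists_unit_mul_zpow hf hπ
  obtain ⟨n, hn⟩ := Int.eq_ofNat_of_zero_le h
  rw [hn, zpow_natCast] at hu
  rw [hu]
  exact (↑u * π ^ n : v.toValuationSubring).2

theorem exists_ord_eq_one (v : Place K F) : ∃ π : F, π ≠ 0 ∧ v.ord π = 1 := by
  obtain ⟨π, hπ⟩ := IsDiscreteValuationRing.exists_irreducible v.toValuationSubring
  exact ⟨π, by simpa [ne_eq, ZeroMemClass.coe_eq_zero] using hπ.ne_zero, v.ord_coe_irreducible hπ⟩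

theorem isOrd_ord (v : Place K F) : IsOrd v.ord where
  map_mul _ _ hf hg := v.ord_mul hf hg
  map_add f g hf hg hfg := by
    have h := v.adicValuation.map_add f g
    have e : ∀ x : F, x ≠ 0 → v.adicValuation x = exp (-v.ord x) := fun x hx => by
      rw [Place.ord, neg_neg, WithZero.exp_log (v.adicValuation_ne_zero hx)]
    rw [e f hf, e g hg, e _ hfg, le_max_iff, exp_le_exp, exp_le_exp] at h
    omega

theorem ord_algebraMap (v : Place K F) (a : K) : v.ord (algebraMap K F a) = 0 := by
  rcases eq_or_ne a 0 with rfl | ha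
  · simp
  have hu : IsUnit (algebraMap K v.toValuationSubring a) := (IsUnit.mk0 a ha).map _
  have := v.ord_coe_unit hu.unit
  simpa using this

/-- An order function which is nonnegative on the valuation ring of a place is a multiple of the
order at that place. -/
theorem isOrd_eq_mul_ord (v : Place K F) {o : F → ℤ} (ho : IsOrd o)
    (hle : ∀ f ∈ v.toValuationSubring, f ≠ 0 → 0 ≤ o f) {π : F} (hπ0 : π ≠ 0)
    (hπ : v.ord π = 1) {f : F} (hf : f ≠ 0) : o f = v.ord f * o π := by
  have key : ∀ u : F, u ≠ 0 → v.ord u = 0 → o u = 0 := by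
    intro u hu h0
    have h1 := hle u ((mem_iff_ord_nonneg v hu).2 h0.ge) hu
    have h2 := hle u⁻¹ ((mem_iff_ord_nonneg v (inv_ne_zero hu)).2 (by rw [v.ord_inv]; omega))
      (inv_ne_zero hu)
    rw [ho.map_inv hu] at h2
    omega
  have hz : π ^ v.ord f ≠ 0 := zpow_ne_zero _ hπ0
  have := key (f / π ^ v.ord f) (div_ne_zero hf hz)
    (by rw [(isOrd_ord v).map_div hf hz, (isOrd_ord v).map_zpow hπ0, hπ]; ring)
  rw [ho.map_div hf hz, ho.map_zpow hπ0] at this
  omega

/-- If the order of `v` is nonnegative on the valuation ring of `w`, the places agree. -/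
theorem place_eq_of_le (v w : Place K F)
    (hle : w.toValuationSubring ≤ v.toValuationSubring) : v = w := by
  obtain ⟨π, hπ0, hπ⟩ := exists_ord_eq_one w
  obtain ⟨ϖ, hϖ0, hϖ⟩ := exists_ord_eq_one v
  have key : ∀ f : F, f ≠ 0 → v.ord f = w.ord f * v.ord π := fun f hf =>
    isOrd_eq_mul_ord w (isOrd_ord v) (fun g hg _ => ord_nonneg_of_mem v (hle hg)) hπ0 hπ hf
  have hc : v.ord π = 1 := by
    have h1 := key ϖ hϖ0
    rw [hϖ] at h1
    have h2 : 0 ≤ v.ord π := ord_nonneg_of_mem v (hle ((mem_iff_ord_nonneg w hπ0).2 (by omega)))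
    rcases Int.eq_one_or_neg_one_of_mul_eq_one (show v.ord π * w.ord ϖ = 1 by
      rw [mul_comm]; exact h1.symm) with h | h <;> omega
  refine Place.ext (SetLike.ext fun f => ?_)
  rcases eq_or_ne f 0 with rfl | hf
  · simp
  rw [mem_iff_ord_nonneg v hf, mem_iff_ord_nonneg w hf, key f hf, hc, mul_one]

theorem mem_of_ord_pos (v : Place K F) {f : F} (h : 0 < v.ord f) : f ∈ v.toValuationSubring := by
  rcases eq_or_ne f 0 with rfl | hf
  · exact zero_mem _
  · exact (mem_iff_ord_nonneg v hf).2 h.le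

end Fermat.Agent.MFGenus
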