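import Fermat.Agent.MFGenus.HolHom
import Fermat.Agent.Cosets.Count
import Fermat.Agent.LevelOne.JBijective

/-!
# Degree and embeddings of the modular function field

For a field `L` with `ι : L →+* ℂ`, the field `laurentBaseChange L (modularFunctionFieldFull N)`
has degree `ψ(N)` over `L(j)`, and its embeddings into `MeroH` over `L(j)` are `x ↦ x ∘ g⁻¹`,
`g` running over `SL(2, ℤ) ⧸ Γ₀(N)`.
-/

set_option autoImplicit false

noncomputable section

open CongruenceSubgroup ModularCurve IntermediateField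
open scoped MatrixGroups Manifold ModularForm IntermediateField.algebraAdjoinAdjoin

namespace Fermat.Agent.MFGenus

open Fermat.Agent.Kummer Fermat.Agent.Kummer.MeroH
open Fermat.Agent

/-- The modular function field over `L`. -/
abbrev FL (L : Type*) [Field L] [Algebra ℚ L] (N : ℕ) : IntermediateField L (LaurentSeries L) :=
  laurentBaseChange L (modularFunctionFieldFull N)

variable (L : Type*) [Field L] [Algebra ℚ L] (N : ℕ) [NeZero N]

/-- The element `j`. -/
def jElt : FL L N :=
  ⟨coeffEmb L (qExpand ℚ 1 jq), coeffEmb_mem_laurentBaseChange L (jqd_mem_full N (one_dvd N))⟩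

/-- The element `j(N τ)`. -/
def jNElt : FL L N :=
  ⟨coeffEmb L (qExpand ℚ N jq), coeffEmb_mem_laurentBaseChange L (jqd_mem_full N dvd_rfl)⟩

variable {L N} (ι : L →+* ℂ)

theorem jScale_one : jScale 1 one_pos = jMero := by
  have h : (!![(1 : ℤ), 0; 0, 1] : Matrix (Fin 2) (Fin 2) ℤ) = (1 : SL(2, ℤ)) := by
    ext i j; fin_cases i <;> fin_cases j <;> rfl
  rw [jScale, intComp_congr (M' := ((1 : SL(2, ℤ)) : Matrix (Fin 2) (Fin 2) ℤ)) _ (by simp)
    (by simpa using h), intComp_coe, slComp_one]

omit [NeZero N] in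
theorem embed_jElt : embed ι N (jElt L N) = jMero := by
  rw [jElt, embed_jq ι 1 (one_dvd N), jScale_one]

theorem embed_jNElt : embed ι N (jNElt L N) = jScale N (NeZero.pos N) :=
  embed_jq ι N dvd_rfl

/-- A polynomial vanishing at `j` in `MeroH` is zero. -/
theorem eval₂_jMero_injective :
    Function.Injective (Polynomial.eval₂RingHom MeroH.const jMero) := by
  rw [injective_iff_map_eq_zero]
  intro p hp
  let J : holSubring := ⟨LevelOne.jFun, LevelOne.mdifferentiable_jFun⟩
  let cst : ℂ →+* holSubring :=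
    (Pi.constRingHom UpperHalfPlane ℂ).codRestrict _ fun _ => mdifferentiable_const
  have h : holHom (p.eval₂ cst J) = 0 := by
    rw [Polynomial.hom_eval₂, ← hp, Polynomial.coe_eval₂RingHom]
    rfl
  have h0 : p.eval₂ cst J = 0 := holHom_injective (by rw [h, map_zero])
  refine Polynomial.funext fun z => ?_
  obtain ⟨τ, hτ⟩ := LevelOne.jFun_surjective z
  let ev : holSubring →+* ℂ :=
    (Pi.evalRingHom (fun _ : UpperHalfPlane => ℂ) τ).comp holSubring.subtype
  have h1 := congrArg ev h0
  rw [Polynomial.hom_eval₂, map_zero] at h1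
  rw [Polynomial.eval_zero, ← h1, Polynomial.eval, show ev J = z from hτ]
  rfl

/-- The field `ℂ(j)` inside `MeroH`. -/
abbrev CJ : IntermediateField ℂ MeroH := ℂ⟮jMero⟯

theorem eval₂_jMero_mem (p : Polynomial ℂ) :
    Polynomial.eval₂RingHom MeroH.const jMero p ∈ CJ := by
  rw [Polynomial.coe_eval₂RingHom, ← MeroH.algebraMap_eq, ← Polynomial.aeval_def]
  exact algebra_adjoin_le_adjoin ℂ _ (Polynomial.aeval_mem_adjoin_singleton ℂ jMero)

variable (N) in
/-- The field `ℂ(j, j(N τ))` inside `MeroH`. -/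
abbrev CJN : IntermediateField CJ MeroH := CJ⟮jScale N (NeZero.pos N)⟯

theorem evalJ_mem_CJN (A : Polynomial (Polynomial ℂ)) :
    A.eval₂ (Polynomial.eval₂RingHom MeroH.const jMero) (jScale N (NeZero.pos N)) ∈ CJN N := by
  rw [Polynomial.eval₂_eq_sum, Polynomial.sum_def]
  exact sum_mem fun i _ => mul_mem ((CJN N).algebraMap_mem ⟨_, eval₂_jMero_mem (A.coeff i)⟩)
    (pow_mem (mem_adjoin_simple_self CJ _) i)

/-- `ℂ(j, j(Nτ))` has degree at most `ψ(N)` over `ℂ(j)`. -/
theorem finrank_CJN_le :
    FiniteDimensional CJ (CJN N) ∧ Module.finrank CJ (CJN N) ≤ dedekindPsi N := by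
  obtain ⟨Φ, hΦ, hdeg, hprod⟩ := MFCore.exists_modularPolynomial (N := N)
  set P : Polynomial CJ := Φ.map ((Polynomial.eval₂RingHom MeroH.const jMero).codRestrict
    CJ.toSubfield eval₂_jMero_mem) with hP
  have hPm : P.Monic := hΦ.map _
  have hz : ofHol (MFCore.evalJ N Φ) (MFCore.mdiff_evalJ Φ) = 0 := by
    have : MFCore.evalJ N Φ = fun _ => 0 := by
      funext τ
      rw [MFCore.evalJ_eq, hprod]
      refine Finset.prod_eq_zero (Finset.mem_univ (MFCore.Coset.one N)) ?_
      rw [MFCore.conj_one (fun γ hγ => MFCore.jN_slash_of_mem hγ), sub_self]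
    exact (ofHol_congr _ mdifferentiable_const this).trans (ofHol_const 0) |>.trans (map_zero _)
  have hroot : Polynomial.aeval (jScale N (NeZero.pos N)) P = 0 := by
    rw [hP, Polynomial.aeval_def, Polynomial.eval₂_map, ← hz, evalJ_eq_eval₂]
    rfl
  have hint : IsIntegral CJ (jScale N (NeZero.pos N)) := ⟨P, hPm, hroot⟩
  refine ⟨adjoin.finiteDimensional hint, ?_⟩
  rw [adjoin.finrank hint]
  refine (Polynomial.natDegree_le_of_dvd (minpoly.dvd _ _ hroot) hPm.ne_zero).trans ?_
  rw [hP, hΦ.natDegree_map, hdeg, ← Cosets.card_coset N, Nat.card_eq_fintype_card]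

theorem jScale_mem_CJN (d : ℕ) (hd : 0 < d) (hdN : d ∣ N) : jScale d hd ∈ CJN N := by
  have : NeZero d := ⟨hd.ne'⟩
  have hle : ∀ γ ∈ Gamma0 N, γ ∈ Gamma0 d := by
    intro γ hγ
    rw [Gamma0_mem] at hγ ⊢
    have := congrArg (ZMod.castHom hdN (ZMod d)) hγ
    simpa using this
  have h1 := MFCore.jNForm_isForm (N := d)
  have hf : MFCore.IsForm N ((d : ℤ) * 12) (MFCore.jNForm d) :=
    ⟨h1.holo, fun γ hγ => h1.slash γ (hle γ hγ), h1.bdd⟩
  have hg : MFCore.IsForm N ((d : ℤ) * 12) (ModularForm.discriminant ^ d) :=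
    (MFCore.isLevelOne_discriminant.isForm N).pow d
  obtain ⟨A, B, hB, hAB⟩ := MFCore.exists_ratio_eq_evalJ hf hg
    (fun h => pow_ne_zero d (ModularForm.discriminant_ne_zero UpperHalfPlane.I)
      (congrFun h UpperHalfPlane.I))
  have hfun : MFCore.jN d * MFCore.evalJ N B = MFCore.evalJ N A := by
    funext τ
    have h := hAB τ
    simp only [MFCore.jNForm, Pi.mul_apply, Pi.pow_apply, mul_assoc] at h ⊢
    exact mul_left_cancel₀ (pow_ne_zero d (ModularForm.discriminant_ne_zero τ)) h
  have h2 : jScale d hd * ofHol (MFCore.evalJ N B) (MFCore.mdiff_evalJ B) =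
      ofHol (MFCore.evalJ N A) (MFCore.mdiff_evalJ A) := by
    rw [jScale_eq_ofHol d]
    exact ofHol_congr (MFCore.jN_mdiff.mul (MFCore.mdiff_evalJ B)) (MFCore.mdiff_evalJ A) hfun
  have hB0 : ofHol (MFCore.evalJ N B) (MFCore.mdiff_evalJ B) ≠ 0 := fun h =>
    hB (congrArg Subtype.val (holHom_injective
      (a₁ := ⟨MFCore.evalJ N B, MFCore.mdiff_evalJ B⟩) (a₂ := 0) (by rw [map_zero]; exact h)))
  rw [eq_div_of_mul_eq hB0 h2, evalJ_eq_eval₂, evalJ_eq_eval₂]
  exact div_mem (evalJ_mem_CJN A) (evalJ_mem_CJN B)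

theorem embed_mem_CJN (x : FL L N) : embed ι N x ∈ CJN N := by
  refine embed_mem_of_generators (S := (CJN N).toSubfield) ι (fun c => ?_)
    (fun d hd hdN => jScale_mem_CJN d hd hdN) x
  exact (CJN N).algebraMap_mem (algebraMap ℂ CJ c)

include ι in
omit [NeZero N] in
theorem transcendental_jElt : Transcendental L (jElt L N) := by
  rw [transcendental_iff]
  intro p hp
  have h := congrArg (embed ι N) hp
  rw [map_zero, Polynomial.aeval_def, Polynomial.hom_eval₂, embed_jElt] at h
  have hc : (embed ι N).comp (algebraMap L (FL L N)) = MeroH.const.comp ι :=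
    RingHom.ext (embed_algebraMap ι)
  rw [hc, ← Polynomial.eval₂_map] at h
  exact (Polynomial.map_eq_zero_iff ι.injective).1
    (eval₂_jMero_injective (h.trans (map_zero _).symm))

omit [Algebra ℚ L] in
theorem exists_dual_ne_zero {M : Type*} [AddCommGroup M] [Module L M] {c : M} (hc : c ≠ 0) :
    ∃ f : M →ₗ[L] L, f c ≠ 0 := by
  obtain ⟨i, hi⟩ : ∃ i, (Module.Basis.ofVectorSpace L M).repr c i ≠ 0 := by
    by_contra h
    push Not at h
    exact hc ((LinearEquiv.map_eq_zero_iff _).1 (Finsupp.ext h))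
  exact ⟨(Finsupp.lapply i).comp (Module.Basis.ofVectorSpace L M).repr.toLinearMap, hi⟩

include ι in
theorem finite_finrank_le :
    Module.Finite L⟮jElt L N⟯ (FL L N) ∧
      Module.finrank L⟮jElt L N⟯ (FL L N) ≤ dedekindPsi N := by
  suffices h : Module.rank L⟮jElt L N⟯ (FL L N) ≤ dedekindPsi N by
    have : Module.Free L⟮jElt L N⟯ (FL L N) := Module.Free.of_divisionRing _ _
    have hfin : Module.Finite L⟮jElt L N⟯ (FL L N) :=
      Module.rank_lt_aleph0_iff.1 (h.trans_lt Cardinal.natCast_lt_aleph0)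
    refine ⟨hfin, ?_⟩
    rw [← Module.finrank_eq_rank] at h
    exact_mod_cast h
  classical
  refine rank_le fun s hs => ?_
  by_contra hcard
  push Not at hcard
  obtain ⟨hfin, hbound⟩ := finrank_CJN_le (N := N)
  let e : s → CJN N := fun i => ⟨embed ι N i, embed_mem_CJN ι (i : FL L N)⟩
  have hdep : ¬ LinearIndependent CJ e := fun h => by
    have := h.fintype_card_le_finrank
    rw [Fintype.card_coe] at this
    omega
  -- a relation with polynomial coefficients
  obtain ⟨p, hp, i₀, hi₀⟩ : ∃ p : s → Polynomial ℂ,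
      ∑ i, Polynomial.eval₂RingHom MeroH.const jMero (p i) * embed ι N i = 0 ∧ ∃ i, p i ≠ 0 := by
    have hdep' : ¬ LinearIndependent (Algebra.adjoin ℂ ({jMero} : Set MeroH))
        (fun i : s => embed ι N i) := fun h => hdep (by
      rw [LinearIndependent.iff_fractionRing (Algebra.adjoin ℂ ({jMero} : Set MeroH)) CJ] at h
      exact h.of_comp (CJN N).val.toLinearMap)
    rw [Fintype.not_linearIndependent_iff] at hdep'
    obtain ⟨g, hg, i, hi⟩ := hdep'
    choose p hp using fun i => (show ∃ q : Polynomial ℂ, Polynomial.aeval jMero q = (g i : MeroH) by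
      have := (g i).2
      simp only [Algebra.adjoin_singleton_eq_range_aeval] at this
      exact this)
    refine ⟨p, ?_, i, fun h0 => hi (Subtype.ext ?_)⟩
    · refine Eq.trans (Finset.sum_congr rfl fun k _ => ?_) hg
      rw [Algebra.smul_def, Polynomial.coe_eval₂RingHom, ← MeroH.algebraMap_eq,
        ← Polynomial.aeval_def, hp]
      rfl
    · rw [← hp, h0, map_zero]; rfl
  set D := (Finset.univ.sup fun i : s => (p i).natDegree) + 1
  have hpD : ∀ i, (p i).natDegree < D := fun i =>
    Nat.lt_succ_of_le (Finset.le_sup (f := fun i => (p i).natDegree) (Finset.mem_univ i))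
  set X : FL L N → LaurentSeries ℂ := fun x => coeffMap ι (x : LaurentSeries L)
  have hser : ∑ i : s, ∑ k ∈ Finset.range D, HahnSeries.C ((p i).coeff k) *
      X (jElt L N ^ k * (i : FL L N)) = 0 := by
    have h1 : ∀ t : Finset s, IsExp 1
        (∑ i ∈ t, ∑ k ∈ Finset.range D, MeroH.const ((p i).coeff k) *
          embed ι N (jElt L N ^ k * (i : FL L N)))
        (∑ i ∈ t, ∑ k ∈ Finset.range D, HahnSeries.C ((p i).coeff k) *
          X (jElt L N ^ k * (i : FL L N))) := by
      intro t
      induction t using Finset.induction with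
      | empty => simpa using IsExp.zero
      | insert a t ha ih =>
        rw [Finset.sum_insert ha, Finset.sum_insert ha]
        refine IsExp.add ?_ ih
        generalize Finset.range D = r
        induction r using Finset.induction with
        | empty => simpa using IsExp.zero
        | insert b r hb ihr =>
          rw [Finset.sum_insert hb, Finset.sum_insert hb]
          exact ((IsExp.const _).mul (isExp_embed ι _)).add ihr
    refine ((h1 Finset.univ).series_eq_zero_iff one_pos).2 ?_
    rw [← hp]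
    refine Finset.sum_congr rfl fun i _ => ?_
    rw [Polynomial.coe_eval₂RingHom, Polynomial.eval₂_eq_sum_range' _ (hpD i), Finset.sum_mul]
    refine Finset.sum_congr rfl fun k _ => ?_
    rw [map_mul, map_pow, embed_jElt, mul_assoc]
  -- descend the coefficients to `L`
  obtain ⟨k₀, hk₀⟩ : ∃ k, (p i₀).coeff k ≠ 0 := by
    by_contra h
    push Not at h
    exact hi₀ (Polynomial.ext fun k => by simpa using h k)
  let : Algebra L ℂ := ι.toAlgebra
  obtain ⟨f, hf⟩ := exists_dual_ne_zero (L := L) (M := ℂ) hk₀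
  set q : s → Polynomial L := fun i =>
    ∑ k ∈ Finset.range D, Polynomial.monomial k (f ((p i).coeff k)) with hq
  have hzero : ∑ i : s, Polynomial.aeval (jElt L N) (q i) * (i : FL L N) = 0 := by
    apply Subtype.ext
    apply HahnSeries.ext
    funext n
    have h := congrArg f (congrArg (fun S : LaurentSeries ℂ => S.coeff n) hser)
    simp only [HahnSeries.coeff_sum, HahnSeries.C_mul_eq_smul, HahnSeries.coeff_smul, smul_eq_mul,
      HahnSeries.coeff_zero, map_zero, map_sum] at h
    have hterm : ∀ (c : ℂ) (l : L), f (c * ι l) = l * f c := fun c l => by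
      rw [mul_comm, show ι l * c = l • c from rfl, map_smul, smul_eq_mul]
    have hser' : ∀ (a : L) (x : FL L N), ((algebraMap L (FL L N) a * x : FL L N) :
        LaurentSeries L).coeff n = a * (x : LaurentSeries L).coeff n := fun a x => by
      change (algebraMap L (LaurentSeries L) a * (x : LaurentSeries L)).coeff n = _
      rw [algebraMap_laurentSeries_eq_single, ← HahnSeries.C_apply, HahnSeries.C_mul_eq_smul,
        HahnSeries.coeff_smul, smul_eq_mul]
    rw [AddSubmonoidClass.coe_finsetSum, HahnSeries.coeff_sum, ZeroMemClass.coe_zero,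
      HahnSeries.coeff_zero, ← h]
    refine Finset.sum_congr rfl fun i _ => ?_
    rw [hq, map_sum, Finset.sum_mul, AddSubmonoidClass.coe_finsetSum, HahnSeries.coeff_sum]
    refine Finset.sum_congr rfl fun k _ => ?_
    rw [Polynomial.aeval_monomial, mul_assoc, hser']
    simp only [X, coeffMap_coeff]
    rw [hterm, mul_comm]
  have hq0 : q i₀ ≠ 0 := by
    intro h0
    have := congrArg (fun P : Polynomial L => P.coeff k₀) h0
    have hk : k₀ ∈ Finset.range D := Finset.mem_range.2
      (lt_of_le_of_lt (Polynomial.le_natDegree_of_ne_zero hk₀) (hpD i₀))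
    simp only [hq, Polynomial.finsetSum_coeff, Polynomial.coeff_monomial, Polynomial.coeff_zero,
      Finset.sum_ite_eq', hk, if_true] at this
    exact hf this
  have hli := Fintype.linearIndependent_iff.1 hs
    (fun i => ⟨Polynomial.aeval (jElt L N) (q i),
      algebra_adjoin_le_adjoin L _ (Polynomial.aeval_mem_adjoin_singleton L _)⟩) (by
      rw [← hzero]
      rfl) i₀
  exact hq0 ((transcendental_iff.1 (transcendental_jElt ι)) _ (congrArg Subtype.val hli))

/-- The embedding attached to a coset. -/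
def conjEmbed (q : SL(2, ℤ) ⧸ Gamma0 N) : FL L N →+* MeroH :=
  (slComp q.out⁻¹).comp (embed ι N)

omit [NeZero N] in
theorem conjEmbed_mk (g : SL(2, ℤ)) (x : FL L N) :
    conjEmbed ι (QuotientGroup.mk g : SL(2, ℤ) ⧸ Gamma0 N) x = slComp g⁻¹ (embed ι N x) := by
  set q : SL(2, ℤ) ⧸ Gamma0 N := QuotientGroup.mk g
  have h : g⁻¹ * q.out ∈ Gamma0 N := by
    rw [← QuotientGroup.eq]; exact (QuotientGroup.out_eq' _).symm
  rw [conjEmbed, RingHom.comp_apply]
  conv_rhs => rw [show g⁻¹ = (g⁻¹ * q.out) * q.out⁻¹ by group, ← slComp_slComp, slComp_embed ι x h]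

omit [NeZero N] in
theorem conjEmbed_algebraMap (q : SL(2, ℤ) ⧸ Gamma0 N) (a : L) :
    conjEmbed ι q (algebraMap L (FL L N) a) = MeroH.const (ι a) := by
  rw [conjEmbed, RingHom.comp_apply, embed_algebraMap, slComp_const]

omit [NeZero N] in
theorem conjEmbed_jElt (q : SL(2, ℤ) ⧸ Gamma0 N) : conjEmbed ι q (jElt L N) = jMero := by
  rw [conjEmbed, RingHom.comp_apply, embed_jElt, slComp_jMero]

theorem conjEmbed_injective :
    Function.Injective (conjEmbed (L := L) (N := N) ι) := by
  intro a b hab
  apply MFCore.conj_jN_injective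
  have h := RingHom.congr_fun hab (jNElt L N)
  simp only [conjEmbed, RingHom.comp_apply, embed_jNElt, jScale_eq_ofHol, slComp_ofHol_slash] at h
  exact congrArg Subtype.val (holHom_injective (a₁ := ⟨_, MFCore.mdiff_slash_SL MFCore.jN_mdiff _⟩)
    (a₂ := ⟨_, MFCore.mdiff_slash_SL MFCore.jN_mdiff _⟩) h)

include ι in
/-- The degree of the modular function field over `L(j)`. -/
theorem finrank_eq_dedekindPsi [CharZero L] :
    Module.finrank L⟮jElt L N⟯ (FL L N) = dedekindPsi N := by
  obtain ⟨hfin, hle⟩ := finite_finrank_le (N := N) ι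
  refine le_antisymm hle ?_
  classical
  let a : MeroH →+* AlgebraicClosure MeroH := algebraMap MeroH (AlgebraicClosure MeroH)
  let : Algebra L⟮jElt L N⟯ (AlgebraicClosure MeroH) :=
    (a.comp ((embed ι N).comp (algebraMap L⟮jElt L N⟯ (FL L N)))).toAlgebra
  have : CharZero L⟮jElt L N⟯ := charZero_of_injective_algebraMap (algebraMap L _).injective
  have := hfin
  have key : ∀ q, ∀ x : L⟮jElt L N⟯,
      conjEmbed ι q (x : FL L N) = embed ι N (x : FL L N) := by
    rintro q ⟨x, hx⟩
    induction hx using IntermediateField.adjoin_induction with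
    | mem x hx => rcases hx with rfl; rw [conjEmbed_jElt, embed_jElt]
    | algebraMap c => rw [conjEmbed_algebraMap, embed_algebraMap]
    | add x z _ _ hx hz => simp [hx, hz]
    | inv x _ hx => simp [hx]
    | mul x z _ _ hx hz => simp [hx, hz]
  let ψ : SL(2, ℤ) ⧸ Gamma0 N → (FL L N →ₐ[L⟮jElt L N⟯] AlgebraicClosure MeroH) := fun q =>
    { a.comp (conjEmbed ι q) with
      commutes' := fun x => congrArg a (key q x) }
  have hψ : Function.Injective ψ := fun i j h =>
    conjEmbed_injective ι (RingHom.ext fun x => a.injective (AlgHom.congr_fun h x))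
  have : Fintype (SL(2, ℤ) ⧸ Gamma0 N) := Subgroup.fintypeQuotientOfFiniteIndex
  have := Fintype.card_le_of_injective ψ hψ
  rw [AlgHom.card] at this
  rw [← Cosets.card_coset N, Nat.card_eq_fintype_card]
  exact this

end Fermat.Agent.MFGenus
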