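import Fermat.Agent.MFCore.JGen
import Fermat.Agent.Kummer.Embed

/-!
# Holomorphic functions inside `MeroH`

The ring map from holomorphic functions on `ℍ` to `MeroH`, and the values of `j` and `j(N τ)` there.
-/

set_option autoImplicit false

noncomputable section

open Filter Topology Complex
open UpperHalfPlane hiding I
open CongruenceSubgroup
open scoped MatrixGroups Manifold ModularForm

namespace Fermat.Agent.MFGenus

open Fermat.Agent.Kummer Fermat.Agent.Kummer.MeroH
open Fermat.Agent

/-- Holomorphic functions on `ℍ`. -/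
def holSubring : Subring (ℍ → ℂ) where
  carrier := {f | MDiff f}
  zero_mem' := mdifferentiable_const
  one_mem' := mdifferentiable_const
  add_mem' hf hg := hf.add hg
  mul_mem' hf hg := hf.mul hg
  neg_mem' hf := hf.neg

/-- Holomorphic functions as elements of `MeroH`. -/
def holHom : holSubring →+* MeroH where
  toFun f := ofHol f.1 f.2
  map_one' := rfl
  map_zero' := rfl
  map_add' _ _ := rfl
  map_mul' _ _ := rfl

theorem ofHol_eq_mk {f : ℍ → ℂ} (hf : MDiff f) (h : MeromorphicOn (f ∘ ofComplex) uhp) :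
    ofHol f hf = mk (f ∘ ofComplex) h := rfl

theorem holHom_injective : Function.Injective holHom := by
  rw [injective_iff_map_eq_zero]
  rintro ⟨f, hf⟩ h
  apply Subtype.ext
  funext τ
  have hf' : MeromorphicOn (f ∘ ofComplex) uhp :=
    ((UpperHalfPlane.mdifferentiable_iff.1 hf).analyticOnNhd isOpen_uhp).meromorphicOn
  change ofHol f hf = 0 at h
  have han : AnalyticAt ℂ (f ∘ ofComplex) (τ : ℂ) :=
    (UpperHalfPlane.mdifferentiable_iff.1 hf).analyticOnNhd isOpen_uhp _ τ.im_pos
  have h1 := ordAt_mk hf' (coe_mem_uhp τ)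
  rw [← ofHol_eq_mk hf hf', h, ordAt_zero (coe_mem_uhp τ)] at h1
  have h2 := meromorphicOrderAt_eq_top_iff.1 h1.symm
  have h3 : (f ∘ ofComplex) =ᶠ[𝓝 (τ : ℂ)] fun _ => 0 :=
    (han.continuousAt.eventuallyEq_nhds_iff_eventuallyEq_nhdsNE continuousAt_const).1 h2
  simpa using h3.eq_of_nhds

theorem ofHol_const (c : ℂ) : ofHol (fun _ => c) mdifferentiable_const = const c := rfl

theorem slComp_ofHol_slash (γ : SL(2, ℤ)) {f : ℍ → ℂ} (hf : MDiff f) :
    slComp γ (ofHol f hf) = ofHol (f ∣[(0 : ℤ)] γ)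
      (MFCore.mdiff_slash_SL hf γ) := by
  rw [ofHol, slComp_mk, ofHol]
  refine mk_congr _ _ fun z hz => ?_
  simp only [Function.comp_apply, moeb, ofComplex_apply]
  rw [ModularForm.SL_slash_apply]
  simp only [neg_zero, zpow_zero, mul_one, ModularGroup.sl_moeb]

theorem jMero_eq_holHom :
    jMero = holHom ⟨LevelOne.jFun, LevelOne.mdifferentiable_jFun⟩ := rfl

theorem jScale_eq_ofHol (d : ℕ) [NeZero d] :
    jScale d (NeZero.pos d) = ofHol (MFCore.jN d) MFCore.jN_mdiff := by
  rw [jScale, jMero, ofHol, intComp_mk, ofHol]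
  refine mk_congr _ _ fun z hz => ?_
  simp only [Function.comp_apply, MFCore.jN]
  rw [MFCore.lift_apply]
  congr 1
  apply UpperHalfPlane.ext
  rw [ofComplex_apply_of_im_pos (moeb_mem _ z)]
  simp only [UpperHalfPlane.coe_mk, moeb_intGL (det_scale (NeZero.pos d)) hz,
    ofComplex_apply_of_im_pos hz]
  simp

/-- A polynomial in `j` and `j(N τ)` as a holomorphic function and evaluated in `MeroH` agree. -/
theorem evalJ_eq_eval₂ (N : ℕ) [NeZero N] (A : Polynomial (Polynomial ℂ)) :
    ofHol (MFCore.evalJ N A) (MFCore.mdiff_evalJ A) =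
      A.eval₂ (Polynomial.eval₂RingHom MeroH.const jMero) (jScale N (NeZero.pos N)) := by
  rw [jScale_eq_ofHol, jMero_eq_holHom]
  let J : holSubring := ⟨LevelOne.jFun, LevelOne.mdifferentiable_jFun⟩
  let JN : holSubring := ⟨MFCore.jN N, MFCore.jN_mdiff⟩
  let cst : ℂ →+* holSubring := (Pi.constRingHom ℍ ℂ).codRestrict _ fun _ => mdifferentiable_const
  have hval : (A.eval₂ (Polynomial.eval₂RingHom cst J) JN : holSubring) =
      (⟨MFCore.evalJ N A, MFCore.mdiff_evalJ A⟩ : holSubring) := by
    apply Subtype.ext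
    funext τ
    let ev : holSubring →+* ℂ := (Pi.evalRingHom (fun _ : ℍ => ℂ) τ).comp holSubring.subtype
    change ev (A.eval₂ (Polynomial.eval₂RingHom cst J) JN) = _
    rw [Polynomial.hom_eval₂]
    change _ = A.eval₂ (Polynomial.evalRingHom (LevelOne.jFun τ)) (MFCore.jN N τ)
    congr 1
    refine Polynomial.ringHom_ext (fun a => ?_) ?_
    · simp [ev, cst]
    · simp [ev, J]
  have h := congrArg holHom hval
  rw [Polynomial.hom_eval₂] at h
  refine h.symm.trans ?_
  congr 1
  refine Polynomial.ringHom_ext (fun a => ?_) ?_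
  · simp only [RingHom.comp_apply, Polynomial.coe_eval₂RingHom, Polynomial.eval₂_C]
    rfl
  · simp [J]

end Fermat.Agent.MFGenus
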