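import Fermat.Agent.MFGenus.Fundamental

/-!
# Places over a zero from embeddings into a valued field

If the `[F : K(y)]` embeddings of `F` into a field `M` with an order function are known, every
place where `y` vanishes is the centre of one of them.
-/

set_option autoImplicit false

noncomputable section

namespace Fermat.Agent.MFGenus

open AlgebraicCurve IsDedekindDomain
open scoped IntermediateField

variable {K F M : Type*} [Field K] [Field F] [Algebra K F] [Field M]

namespace IsOrd

variable {o : F → ℤ} (h : IsOrd o)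

include h

theorem map_neg {f : F} (hf : f ≠ 0) : o (-f) = o f := by
  have h1 := h.map_mul (-1) (-1) (by norm_num) (by norm_num)
  rw [neg_one_mul, neg_neg, h.map_one] at h1
  have h2 := h.map_mul (-1) f (by norm_num) hf
  rw [neg_one_mul] at h2
  omega

theorem map_prod {ι : Type*} (s : Finset ι) (f : ι → F) (hf : ∀ i ∈ s, f i ≠ 0) :
    o (∏ i ∈ s, f i) = ∑ i ∈ s, o (f i) := by
  classical
  induction s using Finset.induction with
  | empty => simp [h.map_one]
  | insert a t ha ih =>
    rw [Finset.prod_insert ha, Finset.sum_insert ha,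
      h.map_mul _ _ (hf a (Finset.mem_insert_self a t))
        (Finset.prod_ne_zero_iff.2 fun i hi => hf i (Finset.mem_insert_of_mem hi)),
      ih fun i hi => hf i (Finset.mem_insert_of_mem hi)]

/-- The valuation ring of an order function. -/
def valuationSubring : ValuationSubring F where
  carrier := {f | f = 0 ∨ 0 ≤ o f}
  zero_mem' := Or.inl rfl
  one_mem' := Or.inr h.map_one.ge
  neg_mem' := by
    rintro f (rfl | hf)
    · exact Or.inl neg_zero
    · rcases eq_or_ne f 0 with rfl | h0
      · exact Or.inl neg_zero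
      · exact Or.inr (by rw [h.map_neg h0]; exact hf)
  mul_mem' := by
    rintro f g hf hg
    rcases eq_or_ne f 0 with rfl | hf0
    · exact Or.inl (zero_mul g)
    rcases eq_or_ne g 0 with rfl | hg0
    · exact Or.inl (mul_zero f)
    refine Or.inr ?_
    rw [h.map_mul f g hf0 hg0]
    exact add_nonneg (hf.resolve_left hf0) (hg.resolve_left hg0)
  add_mem' := by
    rintro f g hf hg
    rcases eq_or_ne f 0 with rfl | hf0
    · simpa using hg
    rcases eq_or_ne g 0 with rfl | hg0
    · simpa using hf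
    rcases eq_or_ne (f + g) 0 with h0 | h0
    · exact Or.inl h0
    exact Or.inr ((le_min (hf.resolve_left hf0) (hg.resolve_left hg0)).trans
      (h.map_add f g hf0 hg0 h0))
  mem_or_inv_mem' := fun f => by
    rcases eq_or_ne f 0 with rfl | hf0
    · exact Or.inl (Or.inl rfl)
    rcases le_total 0 (o f) with hh | hh
    · exact Or.inl (Or.inr hh)
    · exact Or.inr (Or.inr (by rw [h.map_inv hf0]; omega))

theorem mem_valuationSubring {f : F} : f ∈ h.valuationSubring ↔ f = 0 ∨ 0 ≤ o f := Iff.rfl

theorem mem_nonunits_of_pos {f : F} (hf : 0 < o f) : f ∈ h.valuationSubring.nonunits := by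
  rw [ValuationSubring.mem_nonunits_iff_or, h.mem_valuationSubring, inv_eq_zero]
  rcases eq_or_ne f 0 with rfl | hf0
  · exact Or.inl rfl
  refine Or.inr ?_
  rw [h.map_inv hf0]
  rintro (h' | h')
  · exact hf0 h'
  · omega

end IsOrd

theorem isOrd_comp {o : M → ℤ} (h : IsOrd o) (φ : F →+* M) : IsOrd fun f => o (φ f) where
  map_mul f g hf hg := by
    rw [map_mul]
    exact h.map_mul _ _ ((map_ne_zero φ).2 hf) ((map_ne_zero φ).2 hg)
  map_add f g hf hg hfg := by
    rw [map_add]
    exact h.map_add _ _ ((map_ne_zero φ).2 hf) ((map_ne_zero φ).2 hg)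
      (by rw [← map_add]; exact (map_ne_zero φ).2 hfg)

variable (K F M) in
/-- All embeddings over `K(y)` of `F` into a field with an order function. -/
structure Splitting (ι : Type*) [Fintype ι] (y : F) where
  /-- The order function of the target. -/
  ordM : M → ℤ
  isOrd : IsOrd ordM
  /-- The embeddings. -/
  φ : ι → F →+* M
  const_eq : ∀ (i j : ι) (a : K), φ i (algebraMap K F a) = φ j (algebraMap K F a)
  gen_eq : ∀ i j : ι, φ i y = φ j y
  ord_const : ∀ (i : ι) (a : K), ordM (φ i (algebraMap K F a)) = 0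
  pos : ∀ i, 0 < ordM (φ i y)
  injective : Function.Injective φ
  card_eq : Fintype.card ι = Module.finrank K⟮y⟯ F

namespace Splitting

variable {ι : Type*} [Fintype ι] {y : F} (S : Splitting K F M ι y)

theorem eq_on_adjoin (i j : ι) (x : K⟮y⟯) : S.φ i (x : F) = S.φ j (x : F) := by
  obtain ⟨x, hx⟩ := x
  induction hx using IntermediateField.adjoin_induction with
  | mem x hx => rcases hx with rfl; exact S.gen_eq i j
  | algebraMap a => exact S.const_eq i j a
  | add x z _ _ hx hz => simp [hx, hz]
  | inv x _ hx => simp [hx]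
  | mul x z _ _ hx hz => simp [hx, hz]

theorem isOrd_at (i : ι) : IsOrd fun f => S.ordM (S.φ i f) := isOrd_comp S.isOrd (S.φ i)

include S in
theorem y_ne_zero [Nonempty ι] : y ≠ 0 := by
  intro h
  obtain ⟨i⟩ := ‹Nonempty ι›
  have h1 := S.pos i
  have h2 := S.ord_const i 0
  rw [map_zero, map_zero] at h2
  rw [show S.φ i y = 0 by simp [h], h2] at h1
  omega

include S in
theorem nonempty [FiniteDimensional K⟮y⟯ F] : Nonempty ι := by
  rw [← Fintype.card_pos_iff, S.card_eq]
  exact Module.finrank_pos

theorem map_norm [CharZero K] [FiniteDimensional K⟮y⟯ F] (i₀ : ι) (f : F) :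
    S.φ i₀ (algebraMap K⟮y⟯ F (Algebra.norm K⟮y⟯ f)) = ∏ i, S.φ i f := by
  classical
  let a : M →+* AlgebraicClosure M := algebraMap M (AlgebraicClosure M)
  let : Algebra K⟮y⟯ (AlgebraicClosure M) :=
    (a.comp ((S.φ i₀).comp (algebraMap K⟮y⟯ F))).toAlgebra
  have : CharZero K⟮y⟯ := charZero_of_algebra K K⟮y⟯
  let ψ : ι → (F →ₐ[K⟮y⟯] AlgebraicClosure M) := fun i =>
    { a.comp (S.φ i) with
      commutes' := fun x => congrArg a (S.eq_on_adjoin i i₀ x) }
  have hψ : Function.Bijective ψ := by
    rw [Fintype.bijective_iff_injective_and_card, S.card_eq, AlgHom.card]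
    refine ⟨fun i j hij => S.injective (RingHom.ext fun f => a.injective ?_), rfl⟩
    exact AlgHom.congr_fun hij f
  apply a.injective
  rw [map_prod]
  change algebraMap K⟮y⟯ (AlgebraicClosure M) (Algebra.norm K⟮y⟯ f) = _
  rw [Algebra.norm_eq_prod_embeddings]
  exact (Equiv.prod_comp (Equiv.ofBijective ψ hψ) fun σ => σ f).symm

variable (hy : Transcendental K y)

include hy in
/-- The centre of an embedding. -/
theorem exists_center [CharZero K] [FiniteDimensional K⟮y⟯ F] (i : ι) :
    ∃ v : Place K F, 0 < v.ord y ∧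
      v.toValuationSubring = (S.isOrd_at i).valuationSubring ∧
      ∃ c : ℤ, 0 < c ∧ ∀ f : F, f ≠ 0 → S.ordM (S.φ i f) = v.ord f * c := by
  have := isDedekindDomain_intY hy
  have := isFractionRing_intY (K := K) (y := y)
  have : Nonempty ι := ⟨i⟩
  have hK : ∀ a : K, algebraMap K F a ∈ (S.isOrd_at i).valuationSubring := fun a =>
    (IsOrd.mem_valuationSubring _).2 (Or.inr (S.ord_const i a).ge)
  obtain ⟨w, hw, hwy⟩ := exists_placeOfPrime_of_valuationSubring
    (S.isOrd_at i).valuationSubring hK ((S.isOrd_at i).mem_nonunits_of_pos (S.pos i)) S.y_ne_zero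
  set v := placeOfPrime w
  have hY0 : algebraMap (PolyY K y) (IntY K y) (genY K y) ≠ 0 :=
    fun h => S.y_ne_zero (congrArg Subtype.val h)
  have hvy : 0 < v.ord y := (ord_placeOfPrime_pos_iff w hY0).2 hwy
  obtain ⟨π, hπ0, hπ⟩ := exists_ord_eq_one v
  have key := fun (f : F) (hf : f ≠ 0) => isOrd_eq_mul_ord v (S.isOrd_at i)
    (fun g hg hg0 => by
      rw [hw, IsOrd.mem_valuationSubring] at hg
      exact hg.resolve_left hg0) hπ0 hπ hf
  refine ⟨v, hvy, hw, S.ordM (S.φ i π), ?_, key⟩
  have h1 := key y S.y_ne_zero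
  have h2 := S.pos i
  nlinarith

variable [CharZero K] [FiniteDimensional K⟮y⟯ F]

/-- The centre of an embedding. -/
def center (i : ι) : Place K F := (S.exists_center hy i).choose

theorem ord_center_pos (i : ι) : 0 < (S.center hy i).ord y :=
  (S.exists_center hy i).choose_spec.1

theorem center_toValuationSubring (i : ι) :
    (S.center hy i).toValuationSubring = (S.isOrd_at i).valuationSubring :=
  (S.exists_center hy i).choose_spec.2.1

theorem exists_ord_eq_mul (i : ι) :
    ∃ c : ℤ, 0 < c ∧ ∀ f : F, f ≠ 0 → S.ordM (S.φ i f) = (S.center hy i).ord f * c :=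
  (S.exists_center hy i).choose_spec.2.2

theorem center_eq_of_ord_eq {i j : ι} (h : ∀ f : F, S.ordM (S.φ i f) = S.ordM (S.φ j f)) :
    S.center hy i = S.center hy j := by
  refine Place.ext ?_
  rw [S.center_toValuationSubring hy, S.center_toValuationSubring hy]
  refine SetLike.ext fun f => ?_
  simp only [IsOrd.mem_valuationSubring, h f]

include hy in
/-- Every place where `y` vanishes is the centre of an embedding. -/
theorem exists_center_eq (v : Place K F) (hv : 0 < v.ord y) :
    ∃ i, S.center hy i = v := by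
  classical
  have := isDedekindDomain_intY hy
  have := isFractionRing_intY (K := K) (y := y)
  have := S.nonempty
  have hyv : y ∈ v.toValuationSubring.nonunits := by
    rw [ValuationSubring.mem_nonunits_iff_or, mem_iff_ord_nonneg v (inv_ne_zero S.y_ne_zero),
      v.ord_inv]
    exact Or.inr (by omega)
  obtain ⟨w, hw, hwy⟩ := exists_placeOfPrime_of_valuationSubring v.toValuationSubring
    v.algebraMap_mem' hyv S.y_ne_zero
  have hwv : placeOfPrime w = v := Place.ext hw
  by_contra hne
  push Not at hne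
  have hprime : ∀ i, ∃ u : HeightOneSpectrum (IntY K y), placeOfPrime u = S.center hy i := by
    intro i
    have hy' : y ∈ (S.center hy i).toValuationSubring.nonunits := by
      rw [S.center_toValuationSubring hy]
      exact (S.isOrd_at i).mem_nonunits_of_pos (S.pos i)
    obtain ⟨u, hu, -⟩ := exists_placeOfPrime_of_valuationSubring
      (S.center hy i).toValuationSubring (S.center hy i).algebraMap_mem' hy' S.y_ne_zero
    exact ⟨u, Place.ext hu⟩
  choose u hu using hprime
  obtain ⟨r, hrw, hr0, hr⟩ := exists_integral_separating w (Finset.univ.image u) (by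
    simp only [Finset.mem_image, Finset.mem_univ, true_and, not_exists]
    intro i hi
    exact hne i (by rw [← hwv, ← hi, hu]))
  have hrF : (r : F) ≠ 0 := algebraMap_intY_ne_zero hr0
  have hzero : ∀ i, S.ordM (S.φ i (r : F)) = 0 := by
    intro i
    obtain ⟨c, _, hc⟩ := S.exists_ord_eq_mul hy i
    have h1 : ¬ 0 < (S.center hy i).ord (r : F) := fun h => by
      rw [← hu i, ord_placeOfPrime_pos_iff (u i) hr0] at h
      exact hr (u i) (Finset.mem_image.2 ⟨i, Finset.mem_univ _, rfl⟩) h
    have h2 : 0 ≤ (S.center hy i).ord (r : F) := by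
      refine ord_nonneg_of_mem _ (isIntegral_mem_valuationSubring _ ?_ r.2)
      exact mem_of_ord_pos _ (S.ord_center_pos hy i)
    rw [hc _ hrF, show (S.center hy i).ord (r : F) = 0 by omega, zero_mul]
  obtain ⟨b, hb⟩ := exists_norm_eq_mul hy w hwy hrw
  obtain ⟨i₀⟩ := ‹Nonempty ι›
  have h := S.map_norm i₀ (r : F)
  have hne0 : ∀ i ∈ (Finset.univ : Finset ι), S.φ i (r : F) ≠ 0 :=
    fun i _ => (map_ne_zero _).2 hrF
  have hord : S.ordM (∏ i, S.φ i (r : F)) = 0 := by
    rw [S.isOrd.map_prod _ _ hne0]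
    exact Finset.sum_eq_zero fun i _ => hzero i
  rw [← h, hb] at hord
  change S.ordM (S.φ i₀ (y * (b : F))) = 0 at hord
  have hyb : y * (b : F) ≠ 0 := by
    intro h0
    refine Finset.prod_ne_zero_iff.2 hne0 ?_
    rw [← h, hb]
    change S.φ i₀ (y * (b : F)) = 0
    rw [h0, map_zero]
  obtain ⟨c, hc0, hc⟩ := S.exists_ord_eq_mul hy i₀
  have hy1 : 0 < (S.center hy i₀).ord y := S.ord_center_pos hy i₀
  have hy2 : 0 ≤ (S.center hy i₀).ord (b : F) :=
    ord_nonneg_of_mem _ (polyY_subset_valuationSubring _ (mem_of_ord_pos _ hy1) b)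
  rw [hc _ hyb, (S.center hy i₀).ord_mul (left_ne_zero_of_mul hyb) (right_ne_zero_of_mul hyb)]
    at hord
  nlinarith

/-- **Counting.** With orbits `orb` of embeddings having the same order function, orders divisible
by `h`, and orbits at least as large as `m / h`, the places where `y` vanishes correspond to the
orbits, given the fundamental identity. -/
theorem bijective_center {O : Type*} [Fintype O] (orb : ι → O)
    (hsurj : Function.Surjective orb) (h : O → ℕ) {m : ℤ} (hm : ∀ i, S.ordM (S.φ i y) = m)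
    (hsame : ∀ i j, orb i = orb j → ∀ f, S.ordM (S.φ i f) = S.ordM (S.φ j f))
    (hdvd : ∀ (i : ι) (f : F), f ≠ 0 → (h (orb i) : ℤ) ∣ S.ordM (S.φ i f))
    (hle : ∀ o, m ≤ (h o : ℤ) * Nat.card {i // orb i = o})
    (hsum : ∀ s : Finset (Place K F), (∀ v, v ∈ s ↔ 0 < v.ord y) →
      ∑ v ∈ s, v.ord y = Module.finrank K⟮y⟯ F) :
    ∃ e : O ≃ {v : Place K F // 0 < v.ord y}, ∀ i : ι,
      ((e (orb i)) : Place K F) = S.center hy i ∧
      (h (orb i) : ℤ) * (S.center hy i).ord y = m ∧
      ∀ f : F, f ≠ 0 → S.ordM (S.φ i f) = (S.center hy i).ord f * h (orb i) := by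
  classical
  have := S.nonempty
  set g : O → {v : Place K F // 0 < v.ord y} := fun o =>
    ⟨S.center hy (hsurj o).choose, S.ord_center_pos hy _⟩
  have hgi : ∀ i, ((g (orb i)) : Place K F) = S.center hy i := fun i =>
    S.center_eq_of_ord_eq hy (hsame _ _ (hsurj (orb i)).choose_spec)
  have hgsurj : Function.Surjective g := fun v => by
    obtain ⟨i, hi⟩ := S.exists_center_eq hy v.1 v.2
    exact ⟨orb i, Subtype.ext ((hgi i).trans hi)⟩
  set e : O → ℤ := fun o => (g o).1.ord y
  set n : O → ℤ := fun o => (Nat.card {i // orb i = o} : ℤ)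
  have hscale : ∀ i, ∃ k : ℤ, 0 < k ∧ 0 < (h (orb i) : ℤ) ∧
      e (orb i) * (h (orb i) * k) = m ∧
      ∀ f : F, f ≠ 0 → S.ordM (S.φ i f) = (S.center hy i).ord f * (h (orb i) * k) := by
    intro i
    obtain ⟨c, hc0, hc⟩ := S.exists_ord_eq_mul hy i
    obtain ⟨π, hπ0, hπ⟩ := exists_ord_eq_one (S.center hy i)
    obtain ⟨k, hk⟩ := hdvd i π hπ0
    rw [hc π hπ0, hπ, one_mul] at hk
    have hhpos : (0 : ℤ) < h (orb i) := by
      rcases Nat.eq_zero_or_pos (h (orb i)) with h0 | h0
      · rw [h0] at hk; simp at hk; omega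
      · exact_mod_cast h0
    refine ⟨k, by nlinarith, hhpos, ?_, fun f hf => by rw [hc f hf, hk]⟩
    simp only [e, hgi]
    rw [← hk, ← hc y S.y_ne_zero, hm]
  have hen : ∀ o, e o ≤ n o := by
    intro o
    obtain ⟨i, rfl⟩ := hsurj o
    obtain ⟨k, hk0, hh0, hek, -⟩ := hscale i
    have h1 := hle (orb i)
    have h2 : 0 < e (orb i) := (g (orb i)).2
    have h3 : (h (orb i) : ℤ) * e (orb i) ≤ h (orb i) * n (orb i) := by
      have : (h (orb i) : ℤ) * e (orb i) * 1 ≤ h (orb i) * e (orb i) * k :=
        mul_le_mul_of_nonneg_left (by omega) (by positivity)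
      simp only [n]
      nlinarith
    exact le_of_mul_le_mul_left h3 hh0
  set Z : Finset (Place K F) := Finset.univ.image fun o => (g o).1 with hZ
  have hZmem : ∀ v, v ∈ Z ↔ 0 < v.ord y := fun v => by
    simp only [hZ, Finset.mem_image, Finset.mem_univ, true_and]
    refine ⟨?_, fun hv => ?_⟩
    · rintro ⟨o, rfl⟩; exact (g o).2
    · obtain ⟨o, ho⟩ := hgsurj ⟨v, hv⟩
      exact ⟨o, congrArg Subtype.val ho⟩
  have hn : ∑ o, n o = Fintype.card ι := by
    have := Fintype.card_congr (Equiv.sigmaFiberEquiv orb)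
    rw [Fintype.card_sigma] at this
    rw [← this, Nat.cast_sum]
    exact Finset.sum_congr rfl fun o _ => by simp [n, Nat.card_eq_fintype_card]
  have hfib := Finset.sum_fiberwise_of_maps_to
    (s := (Finset.univ : Finset O)) (t := Z) (g := fun o => (g o).1)
    (fun o ho => Finset.mem_image_of_mem _ ho) e
  have hmin : ∑ v ∈ Z, v.ord y ≤ ∑ o, e o := by
    rw [← hfib]
    refine Finset.sum_le_sum fun v hv => ?_
    obtain ⟨o, -, ho⟩ := Finset.mem_image.1 hv
    refine le_trans (le_of_eq ?_) (Finset.single_le_sum (fun o _ => (g o).2.le)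
      (Finset.mem_filter.2 ⟨Finset.mem_univ o, ho⟩))
    simp only [ho]
  have htot := hsum Z hZmem
  have hEn : ∑ o, e o ≤ ∑ o, n o := Finset.sum_le_sum fun o _ => hen o
  have hcard : (Fintype.card ι : ℤ) = Module.finrank K⟮y⟯ F := by rw [S.card_eq]
  have heq : ∀ o, e o = n o := fun o =>
    (Finset.sum_eq_sum_iff_of_le fun o _ => hen o).1 (by omega) o (Finset.mem_univ o)
  have hginj : Function.Injective g := by
    intro o₁ o₂ ho
    by_contra hne
    have hlt : ∑ v ∈ Z, v.ord y < ∑ o, e o := by
      rw [← hfib]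
      refine Finset.sum_lt_sum (fun v hv => ?_) ⟨(g o₁).1,
        Finset.mem_image_of_mem _ (Finset.mem_univ _), ?_⟩
      · obtain ⟨o, -, ho'⟩ := Finset.mem_image.1 hv
        refine le_trans (le_of_eq ?_) (Finset.single_le_sum (fun o _ => (g o).2.le)
          (Finset.mem_filter.2 ⟨Finset.mem_univ o, ho'⟩))
        simp only [ho']
      · have hsub : ({o₁, o₂} : Finset O) ⊆
            Finset.univ.filter fun o => (g o).1 = (g o₁).1 := by
          intro o hmem
          rcases Finset.mem_insert.1 hmem with rfl | hmem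
          · simp
          · rw [Finset.mem_singleton.1 hmem]; simp [ho]
        calc (g o₁).1.ord y < e o₁ + e o₂ := lt_add_of_pos_right _ (g o₂).2
          _ = ∑ o ∈ {o₁, o₂}, e o := (Finset.sum_pair hne).symm
          _ ≤ _ := Finset.sum_le_sum_of_subset_of_nonneg hsub fun o _ _ => (g o).2.le
    omega
  refine ⟨Equiv.ofBijective g ⟨hginj, hgsurj⟩, fun i => ?_⟩
  obtain ⟨k, hk0, hh0, hek, hord⟩ := hscale i
  have h1 := hle (orb i)
  have h2 : 0 < e (orb i) := (g (orb i)).2
  have hk1 : k = 1 := by
    have h3 := heq (orb i)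
    simp only [n] at h3
    rw [← h3] at h1
    have h4 : (h (orb i) : ℤ) * e (orb i) * k ≤ h (orb i) * e (orb i) * 1 := by nlinarith
    have := le_of_mul_le_mul_left h4 (by positivity)
    omega
  refine ⟨hgi i, ?_, fun f hf => ?_⟩
  · rw [← hgi i, ← hek, hk1, mul_one, mul_comm]
  · rw [hord f hf, hk1, mul_one]

end Splitting

end Fermat.Agent.MFGenus
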