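import Fermat.Agent.MFGenus.HolHom
import Fermat.Agent.Kummer.Invariant
import Fermat.Agent.LevelOne.JBijective
import Fermat.Agent.MFGenus.SplitPlaces

/-!
# Orders of invariant meromorphic functions at points and at infinity
-/

set_option autoImplicit false

noncomputable section

open Filter Topology Complex
open UpperHalfPlane hiding I
open scoped MatrixGroups

namespace Fermat.Agent.MFGenus

open Fermat.Agent.Kummer Fermat.Agent.Kummer.MeroH
open Fermat.Agent

/-- The order at `τ`, zero on the zero function. -/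
def ordPoint (τ : ℍ) (x : MeroH) : ℤ := (ordAt x (τ : ℂ)).untop₀

theorem coe_ordPoint {τ : ℍ} {x : MeroH} (hx : x ≠ 0) :
    (ordPoint τ x : WithTop ℤ) = ordAt x (τ : ℂ) :=
  WithTop.coe_untop₀_of_ne_top (ordAt_ne_top hx τ.im_pos)

theorem isOrd_ordPoint (τ : ℍ) : IsOrd (ordPoint τ) where
  map_mul f g hf hg := by
    apply WithTop.coe_injective
    rw [WithTop.coe_add, coe_ordPoint (mul_ne_zero hf hg), coe_ordPoint hf, coe_ordPoint hg,
      ordAt_mul _ _ (coe_mem_uhp τ)]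
  map_add f g hf hg hfg := by
    rw [← WithTop.coe_le_coe, WithTop.coe_min, coe_ordPoint hfg, coe_ordPoint hf, coe_ordPoint hg]
    exact ordAt_add _ _ (coe_mem_uhp τ)

theorem ordPoint_const (τ : ℍ) (c : ℂ) : ordPoint τ (const c) = 0 := by
  rcases eq_or_ne c 0 with rfl | hc
  · rw [map_zero, ordPoint, ordAt_zero (coe_mem_uhp τ)]; rfl
  · rw [ordPoint, ordAt_const hc (coe_mem_uhp τ)]; rfl

theorem moeb_sl_of_fixed {γ : SL(2, ℤ)} {τ : ℍ} (h : γ • τ = τ) :
    moeb (γ : GL (Fin 2) ℝ) (τ : ℂ) = τ := by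
  rw [moeb_coe]
  exact congrArg UpperHalfPlane.coe h

theorem ordPoint_slComp (γ : SL(2, ℤ)) (τ : ℍ) (x : MeroH) :
    ordPoint τ (slComp γ x) = ordPoint (γ • τ) x := by
  rw [ordPoint, ordPoint, slComp, ordAt_comp _ _ _ (coe_mem_uhp τ), moeb_coe]
  rfl

/-- The multiplier of a fixed point. -/
def rot (γ : SL(2, ℤ)) (τ : ℍ) : ℂ := 1 / ((γ 1 0 : ℂ) * τ + (γ 1 1 : ℂ)) ^ 2

theorem hasDerivAt_moeb_sl (γ : SL(2, ℤ)) (τ : ℍ) :
    HasDerivAt (moeb (γ : GL (Fin 2) ℝ)) (rot γ τ) (τ : ℂ) := by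
  have hdet : 0 < (γ : GL (Fin 2) ℝ).val.det := by
    rw [← Matrix.GeneralLinearGroup.val_det_apply]; exact det_SL_pos γ
  have h := (UpperHalfPlane.hasStrictDerivAt_smul hdet τ).hasDerivAt
  have hd : ((γ : GL (Fin 2) ℝ).val.det : ℂ) = 1 := by
    rw [← Matrix.GeneralLinearGroup.val_det_apply]; simp
  rw [hd] at h
  have hr : rot γ τ = 1 / UpperHalfPlane.denom (γ : GL (Fin 2) ℝ) τ ^ 2 := by
    simp [rot, UpperHalfPlane.denom]
  rw [hr]
  exact h

/-- If `γ` fixes `τ` and `x`, then the order of `x` at `τ` kills the multiplier. -/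
theorem rot_zpow_ordPoint {γ : SL(2, ℤ)} {τ : ℍ} (hτ : γ • τ = τ) {x : MeroH} (hx0 : x ≠ 0)
    (hx : slComp γ x = x) : rot γ τ ^ ordPoint τ x = 1 := by
  obtain ⟨f, hf, rfl⟩ := exists_rep x
  have hn : meromorphicOrderAt f (τ : ℂ) = (ordPoint τ (mk f hf) : ℤ) := by
    rw [coe_ordPoint hx0, ordAt_mk hf (coe_mem_uhp τ)]
  obtain ⟨u, hu, hu0, hfu⟩ := (meromorphicOrderAt_eq_int_iff (hf _ (coe_mem_uhp τ))).1 hn
  set n := ordPoint τ (mk f hf)
  set g := moeb (γ : GL (Fin 2) ℝ)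
  have hgτ : g τ = τ := moeb_sl_of_fixed hτ
  rw [slComp_mk] at hx
  have h1 := mk_eq_mk_iff.1 hx τ (coe_mem_uhp τ)
  have ht : Tendsto g (𝓝[≠] (τ : ℂ)) (𝓝[≠] (τ : ℂ)) := by
    have := tendsto_moeb_nhdsNE (det_SL_pos γ) (coe_mem_uhp τ)
    rwa [show moeb (γ : GL (Fin 2) ℝ) τ = τ from hgτ] at this
  have hev : ∀ᶠ z in 𝓝[≠] (τ : ℂ), slope g τ z ^ n * u (g z) = u z := by
    filter_upwards [h1, hfu, ht.eventually hfu, self_mem_nhdsWithin] with z hz hfz hfgz hne
    simp only [Function.comp_apply] at hz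
    rw [hfgz, hfz, smul_eq_mul, smul_eq_mul] at hz
    have hzτ : z - (τ : ℂ) ≠ 0 := sub_ne_zero.2 hne
    rw [slope_def_field, hgτ, div_zpow, div_mul_eq_mul_div, hz,
      mul_div_cancel_left₀ _ (zpow_ne_zero n hzτ)]
  have hslope := (hasDerivAt_moeb_sl γ τ).tendsto_slope
  have hrot : rot γ τ ≠ 0 := by
    rw [← (hasDerivAt_moeb_sl γ τ).deriv]
    exact deriv_moeb_ne_zero (det_SL_pos γ) (coe_mem_uhp τ)
  have hlim : Tendsto (fun z => slope g τ z ^ n * u (g z)) (𝓝[≠] (τ : ℂ))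
      (𝓝 (rot γ τ ^ n * u τ)) := by
    refine ((hslope.zpow₀ n (Or.inl hrot))).mul ?_
    exact hu.continuousAt.tendsto.comp (ht.mono_right nhdsWithin_le_nhds)
  have hlim' : Tendsto (fun z => slope g τ z ^ n * u (g z)) (𝓝[≠] (τ : ℂ)) (𝓝 (u τ)) :=
    (hu.continuousAt.tendsto.mono_left nhdsWithin_le_nhds).congr' (hev.mono fun z hz => hz.symm)
  have := tendsto_nhds_unique hlim hlim'
  exact mul_right_cancel₀ hu0 (this.trans (one_mul _).symm)

/-- A root of unity of prime order forces divisibility. -/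
theorem prime_dvd_of_zpow_eq_one {ζ : ℂ} {p : ℕ} (hp : p.Prime) (h1 : ζ ≠ 1) (hpow : ζ ^ p = 1)
    {n : ℤ} (hn : ζ ^ n = 1) : (p : ℤ) ∣ n := by
  have ho : orderOf ζ = p := by
    have := Fact.mk hp
    exact orderOf_eq_prime hpow h1
  have hζ : IsPrimitiveRoot ζ p := ho ▸ IsPrimitiveRoot.orderOf ζ
  exact (hζ.zpow_eq_one_iff_dvd n).1 hn

/-- The order at `τ` of `j - c`, `c = j τ`. -/
theorem ordPoint_jMero_sub (τ : ℍ) :
    (ordPoint τ (jMero - const (LevelOne.jFun τ)) : WithTop ℤ) =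
      (analyticOrderAt (fun w => LevelOne.jFun (ofComplex w) - LevelOne.jFun τ) τ).map
        (Nat.cast : ℕ → ℤ) := by
  have hne : jMero - const (LevelOne.jFun τ) ≠ 0 := by
    intro h
    rw [sub_eq_zero] at h
    obtain ⟨τ', hτ'⟩ := LevelOne.jFun_surjective (LevelOne.jFun τ + 1)
    have h2 := eq_of_ofHol_eq (hψ := mdifferentiable_const)
      (show ofHol LevelOne.jFun LevelOne.mdifferentiable_jFun =
        ofHol (fun _ => LevelOne.jFun τ) mdifferentiable_const from h)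
    have h3 := congrFun h2 τ'
    rw [hτ'] at h3
    simp at h3
  rw [coe_ordPoint hne]
  have han : AnalyticAt ℂ (fun w => LevelOne.jFun (ofComplex w) - LevelOne.jFun τ) (τ : ℂ) :=
    (LevelOne.analyticAt_jFun τ).sub analyticAt_const
  rw [← han.meromorphicOrderAt_eq, jMero, ofHol, const_apply, mk_sub]
  exact ordAt_mk _ (coe_mem_uhp τ)

/-- The elements of `MeroH` with an expansion in `exp (2 π i z / N)`. -/
def cuspSubfield (N : ℕ) [NeZero N] : Subfield MeroH where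
  carrier := {x | ∃ s, IsExp N x s}
  one_mem' := ⟨1, IsExp.one⟩
  zero_mem' := ⟨0, IsExp.zero⟩
  mul_mem' := fun ⟨_, ha⟩ ⟨_, hb⟩ => ⟨_, ha.mul hb⟩
  add_mem' := fun ⟨_, ha⟩ ⟨_, hb⟩ => ⟨_, ha.add hb⟩
  neg_mem' := fun ⟨_, ha⟩ => ⟨_, ha.neg⟩
  inv_mem' := fun _ ⟨_, ha⟩ => ⟨_, ha.inv (by exact_mod_cast NeZero.pos N)⟩

/-- The order at infinity in `exp (2 π i z / N)`. -/
def ordInfty {N : ℕ} [NeZero N] (x : cuspSubfield N) : ℤ := (x.2.choose).order

theorem ordInfty_eq {N : ℕ} [NeZero N] {x : cuspSubfield N} {s : LaurentSeries ℂ}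
    (h : IsExp N (x : MeroH) s) : ordInfty x = s.order := by
  rw [ordInfty, (x.2.choose_spec.unique (by exact_mod_cast NeZero.pos N) h).2 rfl]

theorem series_ne_zero {N : ℕ} [NeZero N] {x : cuspSubfield N} (hx : x ≠ 0) :
    x.2.choose ≠ 0 := fun h => hx (Subtype.ext
  ((x.2.choose_spec.series_eq_zero_iff (by exact_mod_cast NeZero.pos N)).1 h))

theorem isOrd_ordInfty (N : ℕ) [NeZero N] : IsOrd (ordInfty (N := N)) where
  map_mul f g hf hg := by
    rw [ordInfty_eq (x := f * g) (f.2.choose_spec.mul g.2.choose_spec),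
      HahnSeries.order_mul (series_ne_zero hf) (series_ne_zero hg)]
    rfl
  map_add f g hf hg hfg := by
    rw [ordInfty_eq (x := f + g) (f.2.choose_spec.add g.2.choose_spec)]
    refine HahnSeries.min_order_le_order_add fun h => hfg (Subtype.ext ?_)
    exact ((f.2.choose_spec.add g.2.choose_spec).series_eq_zero_iff
      (by exact_mod_cast NeZero.pos N)).1 h

theorem ordInfty_const {N : ℕ} [NeZero N] {x : cuspSubfield N} (c : ℂ)
    (h : (x : MeroH) = const c) : ordInfty x = 0 := by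
  rw [ordInfty_eq (s := HahnSeries.C c) (by rw [h]; exact IsExp.const c)]
  exact HahnSeries.order_C

theorem order_eq_of_coeff_eq {s t : LaurentSeries ℂ} (h : ∀ m, t.coeff m = 0 ↔ s.coeff m = 0) :
    t.order = s.order := by
  rcases eq_or_ne s 0 with rfl | hs
  · have : t = 0 := HahnSeries.ext (funext fun m => (h m).2 rfl)
    rw [this]
  have ht : t ≠ 0 := by
    rintro rfl
    exact HahnSeries.coeff_order_eq_zero.not.2 hs ((h s.order).1 rfl)
  refine le_antisymm (HahnSeries.order_le_of_coeff_ne_zero ?_)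
    (HahnSeries.order_le_of_coeff_ne_zero ?_)
  · exact fun h0 => HahnSeries.coeff_order_eq_zero.not.2 hs ((h _).1 h0)
  · exact fun h0 => HahnSeries.coeff_order_eq_zero.not.2 ht ((h _).2 h0)

/-- Translations preserve the order at infinity. -/
theorem ordInfty_slComp_T_zpow {N : ℕ} [NeZero N] (k : ℤ) {x y : cuspSubfield N}
    (h : (y : MeroH) = slComp (ModularGroup.T ^ k) (x : MeroH)) : ordInfty y = ordInfty x := by
  obtain ⟨t, ht, htc⟩ :=
    x.2.choose_spec.slComp_T_zpow (by exact_mod_cast NeZero.pos N) k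
  rw [ordInfty_eq (x := y) (by rw [h]; exact ht)]
  refine order_eq_of_coeff_eq fun m => ?_
  rw [htc, mul_eq_zero]
  exact or_iff_right (zpow_ne_zero _ (Function.Periodic.qParam_ne_zero _))

/-- An element fixed by translation by `w`, `w ∣ N`, has order divisible by `N / w`. -/
theorem dvd_ordInfty {N : ℕ} [NeZero N] {w : ℕ} (hw : w ∣ N) {x : cuspSubfield N} (hx0 : x ≠ 0)
    (h : slComp (ModularGroup.T ^ (w : ℤ)) (x : MeroH) = x) :
    ((N / w : ℕ) : ℤ) ∣ ordInfty x := by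
  obtain ⟨d, hd⟩ := hw
  have hwpos : 0 < w := by
    rcases Nat.eq_zero_or_pos w with h0 | h0
    · exact absurd (by rw [hd, h0, zero_mul]) (NeZero.ne N)
    · exact h0
  have h1 := x.2.choose_spec.eq_qParam_zpow_order (by exact_mod_cast NeZero.pos N)
    (series_ne_zero hx0) (k := (w : ℤ)) (c := 1) (by rw [map_one, one_mul]; exact h)
  rw [show N / w = d from Nat.div_eq_of_eq_mul_right hwpos hd]
  rw [Function.Periodic.qParam, ← Complex.exp_int_mul, eq_comm, Complex.exp_eq_one_iff] at h1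
  obtain ⟨n, hn⟩ := h1
  refine ⟨n, ?_⟩
  have hN : (N : ℂ) ≠ 0 := by exact_mod_cast NeZero.ne N
  have hNc : (N : ℂ) = w * d := by exact_mod_cast hd
  have hkey : ((x.2.choose.order : ℤ) : ℂ) * w = n * N := by
    push_cast at hn
    field_simp at hn
    have h2 : (2 * (Real.pi : ℂ) * Complex.I) ≠ 0 := Complex.two_pi_I_ne_zero
    refine mul_left_cancel₀ h2 ?_
    linear_combination (2 * (Real.pi : ℂ) * Complex.I) * hn
  rw [hNc] at hkey
  have hkey' : (x.2.choose.order : ℤ) = d * n := by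
    have : ((x.2.choose.order : ℤ) : ℂ) = (d : ℂ) * n :=
      mul_right_cancel₀ (b := (w : ℂ)) (by exact_mod_cast hwpos.ne') (by linear_combination hkey)
    exact_mod_cast this
  exact hkey'

/-- The order of `1/j` at infinity in `exp (2 π i z / N)` is `N`. -/
theorem exists_cuspSubfield_jMero (N : ℕ) [NeZero N] :
    ∃ h : jMero ∈ cuspSubfield N, ordInfty (⟨jMero, h⟩ : cuspSubfield N) = -(N : ℤ) := by
  obtain ⟨t, ht, htN, htlt⟩ := MeroH.exists_isExp_jMero N
  refine ⟨⟨t, ht⟩, ?_⟩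
  rw [ordInfty_eq (x := ⟨jMero, ⟨t, ht⟩⟩) ht]
  refine le_antisymm (HahnSeries.order_le_of_coeff_ne_zero (by rw [htN]; exact one_ne_zero)) ?_
  by_contra hlt
  push Not at hlt
  refine HahnSeries.coeff_order_eq_zero.not.2 (fun h0 => ?_) (htlt _ hlt)
  rw [h0] at htN
  simp at htN

end Fermat.Agent.MFGenus
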