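import Fermat.Agent.MFGenus.FieldDegree
import Fermat.Agent.MFGenus.PointOrder
import Fermat.Agent.FF.Degree

/-!
# The places of the modular function field

Over an algebraically closed `L` with `ι : L →+* ℂ`: the places where `j` takes a given value `x₀`
correspond to the orbits of the stabiliser of a point `τ₀` over `ι x₀` on `SL(2, ℤ) ⧸ Γ₀(N)`, the
places where `j` has a pole to the cusps.
-/

set_option autoImplicit false

noncomputable section

open CongruenceSubgroup ModularCurve IntermediateField AlgebraicCurve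
open UpperHalfPlane hiding I
open scoped MatrixGroups

namespace Fermat.Agent.MFGenus

open Fermat.Agent.Kummer Fermat.Agent.Kummer.MeroH
open Fermat.Agent

theorem adjoin_sub_const {K F : Type*} [Field K] [Field F] [Algebra K F] (x : F) (a : K) :
    K⟮x - algebraMap K F a⟯ = K⟮x⟯ := by
  refine le_antisymm (adjoin_simple_le_iff.2 ?_) (adjoin_simple_le_iff.2 ?_)
  · exact sub_mem (mem_adjoin_simple_self K x) (IntermediateField.algebraMap_mem _ a)
  · simpa using add_mem (mem_adjoin_simple_self K (x - algebraMap K F a))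
      (IntermediateField.algebraMap_mem _ a)

theorem adjoin_inv {K F : Type*} [Field K] [Field F] [Algebra K F] (x : F) :
    K⟮x⁻¹⟯ = K⟮x⟯ := by
  refine le_antisymm (adjoin_simple_le_iff.2 ?_) (adjoin_simple_le_iff.2 ?_)
  · exact inv_mem (mem_adjoin_simple_self K x)
  · simpa using inv_mem (mem_adjoin_simple_self K x⁻¹)

/-- The fundamental identity at the zeros of `y`. -/
theorem sum_ord_zeros {K F : Type*} [Field K] [Field F] [Algebra K F] [IsAlgClosed K]
    [FF.IsFunctionField K F] {y : F} (hy : Transcendental K y)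
    (hdeg : ∀ v : Place K F, v.deg = 1) (s : Finset (Place K F))
    (hs : ∀ v, v ∈ s ↔ 0 < v.ord y) :
    ∑ v ∈ s, v.ord y = Module.finrank K⟮y⟯ F := by
  classical
  have hyi : Transcendental K y⁻¹ := fun h => hy (by simpa using h.inv)
  rw [← adjoin_inv y, ← FF.degree_poleDiv hyi, FF.degree_eq_sum]
  have hsupp : (FF.poleDiv K y⁻¹).support = s := by
    ext v
    rw [Finsupp.mem_support_iff, FF.poleDiv_apply, v.ord_inv, neg_neg, hs]
    omega
  rw [hsupp]
  refine Finset.sum_congr rfl fun v hv => ?_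
  rw [FF.poleDiv_apply, v.ord_inv, neg_neg, hdeg, Nat.cast_one, mul_one,
    max_eq_left ((hs v).1 hv).le]

variable {L : Type*} [Field L] [Algebra ℚ L] {N : ℕ} [NeZero N] (ι : L →+* ℂ)

include ι in
theorem isFunctionField_FL : FF.IsFunctionField L (FL L N) := by
  have := (finite_finrank_le (N := N) ι).1
  exact FF.IsFunctionField.of_finite (jElt L N) (transcendental_jElt ι)

include ι in
theorem deg_eq_one_FL [IsAlgClosed L] (v : Place L (FL L N)) : v.deg = 1 := by
  have := isFunctionField_FL (N := N) ι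
  exact FF.deg_eq_one v

omit [NeZero N] in
theorem conjEmbed_smul (g : SL(2, ℤ)) (q : SL(2, ℤ) ⧸ Gamma0 N) (x : FL L N) :
    conjEmbed ι (g • q) x = slComp g⁻¹ (conjEmbed ι q x) := by
  induction q using QuotientGroup.induction_on with
  | H a =>
    rw [MulAction.Quotient.smul_coe, conjEmbed_mk, conjEmbed_mk, slComp_slComp]
    rw [smul_eq_mul, mul_inv_rev]

omit [NeZero N] in
theorem conjEmbed_jElt_sub (q : SL(2, ℤ) ⧸ Gamma0 N) (x₀ : L) :
    conjEmbed ι q (jElt L N - algebraMap L (FL L N) x₀) = jMero - const (ι x₀) := by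
  rw [map_sub, conjEmbed_jElt, conjEmbed_algebraMap]

/-- The orbits of `g` on the cosets. -/
abbrev PointOrbit (N : ℕ) (g : SL(2, ℤ)) : Type :=
  MulAction.orbitRel.Quotient (Subgroup.zpowers g) (SL(2, ℤ) ⧸ Gamma0 N)

open scoped Classical in
/-- The order of the stabiliser of a point in the orbit, modulo `±1`. -/
def pointStab {N : ℕ} {g : SL(2, ℤ)} (m : ℕ) (o : PointOrbit N g) : ℕ :=
  if g • o.out = o.out then m else 1

section Point

variable {τ₀ : ℍ} {x₀ : L}

/-- The embeddings over `j = x₀`, seen at the point `τ₀`. -/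
def pointSplitting (hx₀ : ι x₀ = LevelOne.jFun τ₀) {m : ℕ} (hm0 : 0 < m)
    (hord : analyticOrderAt
      (fun w => LevelOne.jFun (ofComplex w) - LevelOne.jFun τ₀) τ₀ = (m : ℕ)) :
    @Splitting L (FL L N) MeroH _ _ _ _ (SL(2, ℤ) ⧸ Gamma0 N)
      (Subgroup.fintypeQuotientOfFiniteIndex) (jElt L N - algebraMap L (FL L N) x₀) where
  ordM := ordPoint τ₀
  isOrd := isOrd_ordPoint τ₀
  φ := conjEmbed ι
  const_eq i j a := by rw [conjEmbed_algebraMap, conjEmbed_algebraMap]
  gen_eq i j := by rw [conjEmbed_jElt_sub, conjEmbed_jElt_sub]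
  ord_const i a := by rw [conjEmbed_algebraMap]; exact ordPoint_const τ₀ _
  pos i := by
    rw [conjEmbed_jElt_sub, hx₀]
    have h := ordPoint_jMero_sub τ₀
    rw [hord] at h
    have h' : ordPoint τ₀ (jMero - const (LevelOne.jFun τ₀)) = (m : ℤ) := WithTop.coe_injective h
    omega
  injective := conjEmbed_injective ι
  card_eq := by
    have : CharZero L := ι.charZero
    let : Fintype (SL(2, ℤ) ⧸ Gamma0 N) := Subgroup.fintypeQuotientOfFiniteIndex
    rw [adjoin_sub_const, finrank_eq_dedekindPsi ι, ← Cosets.card_coset N,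
      Nat.card_eq_fintype_card]

include ι in
/-- **Places over a finite value of `j`.** -/
theorem exists_point_equiv [IsAlgClosed L] (hx₀ : ι x₀ = LevelOne.jFun τ₀) {g : SL(2, ℤ)}
    (hg : g • τ₀ = τ₀) {m : ℕ}
    (hord : analyticOrderAt
      (fun w => LevelOne.jFun (ofComplex w) - LevelOne.jFun τ₀) τ₀ = (m : ℕ))
    (hm : m = 1 ∨ m.Prime ∧ rot g⁻¹ τ₀ ≠ 1 ∧ rot g⁻¹ τ₀ ^ m = 1)
    (hgm : ∀ q : SL(2, ℤ) ⧸ Gamma0 N, g ^ m • q = q) :
    ∃ e : PointOrbit N g ≃ {v : Place L (FL L N) // 0 < v.ord (jElt L N - algebraMap L _ x₀)},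
      ∀ q : SL(2, ℤ) ⧸ Gamma0 N,
        (pointStab m (Quotient.mk'' q : PointOrbit N g) : ℤ) *
          (e (Quotient.mk'' q)).1.ord (jElt L N - algebraMap L _ x₀) = m ∧
        ∀ f : FL L N, f ≠ 0 → ordPoint τ₀ (conjEmbed ι q f) =
          (e (Quotient.mk'' q)).1.ord f * pointStab m (Quotient.mk'' q : PointOrbit N g) := by
  classical
  let : Fintype (SL(2, ℤ) ⧸ Gamma0 N) := Subgroup.fintypeQuotientOfFiniteIndex
  let : Fintype (PointOrbit N g) := Fintype.ofFinite _
  have : CharZero L := ι.charZero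
  have := isFunctionField_FL (N := N) ι
  have hm0 : 0 < m := by rcases hm with rfl | ⟨h, -, -⟩ <;> [exact one_pos; exact h.pos]
  set y := jElt L N - algebraMap L (FL L N) x₀
  let S : Splitting L (FL L N) MeroH (SL(2, ℤ) ⧸ Gamma0 N) y :=
    pointSplitting (N := N) ι hx₀ hm0 hord
  have hy : Transcendental L y := by
    intro h
    apply transcendental_jElt (N := N) ι
    have := h.add (isAlgebraic_algebraMap (R := L) (A := FL L N) x₀)
    simpa [y] using this
  have : FiniteDimensional L⟮y⟯ (FL L N) := by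
    rw [show L⟮y⟯ = L⟮jElt L N⟯ from adjoin_sub_const _ _]
    exact (finite_finrank_le ι).1
  have hgi : g⁻¹ • τ₀ = τ₀ := by rw [inv_smul_eq_iff, hg]
  have hfixed : ∀ γ ∈ Subgroup.zpowers g, γ • τ₀ = τ₀ := fun γ hγ =>
    (Subgroup.zpowers_le.2 (show g ∈ MulAction.stabilizer SL(2, ℤ) τ₀ from hg)) hγ
  have hsame : ∀ i j : SL(2, ℤ) ⧸ Gamma0 N,
      (Quotient.mk'' i : PointOrbit N g) = Quotient.mk'' j →
      ∀ f, S.ordM (S.φ i f) = S.ordM (S.φ j f) := by
    intro i j hij f
    obtain ⟨⟨γ, hγ⟩, rfl⟩ := MulAction.orbitRel_apply.1 (Quotient.eq''.1 hij)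
    change ordPoint τ₀ (conjEmbed ι (γ • j) f) = ordPoint τ₀ (conjEmbed ι j f)
    rw [conjEmbed_smul, ordPoint_slComp,
      show γ⁻¹ • τ₀ = τ₀ by rw [inv_smul_eq_iff, hfixed γ hγ]]
  have hdvd : ∀ (i : SL(2, ℤ) ⧸ Gamma0 N) (f : FL L N), f ≠ 0 →
      (pointStab m (Quotient.mk'' i : PointOrbit N g) : ℤ) ∣ S.ordM (S.φ i f) := by
    intro i f hf
    rw [pointStab]
    split_ifs with hfix
    · rcases hm with rfl | ⟨hp, hz1, hzp⟩
      · exact one_dvd _
      set o := (Quotient.mk'' i : PointOrbit N g)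
      rw [hsame i o.out (Quotient.out_eq' o).symm f]
      change (m : ℤ) ∣ ordPoint τ₀ (conjEmbed ι o.out f)
      refine prime_dvd_of_zpow_eq_one hp hz1 hzp
        (rot_zpow_ordPoint hgi ((map_ne_zero _).2 hf) ?_)
      rw [← conjEmbed_smul, hfix]
    · exact one_dvd _
  have hle : ∀ o : PointOrbit N g,
      (m : ℤ) ≤ (pointStab m o : ℤ) *
        Nat.card {i // (Quotient.mk'' i : PointOrbit N g) = o} := by
    intro o
    have : Nonempty {i // (Quotient.mk'' i : PointOrbit N g) = o} :=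
      ⟨⟨o.out, Quotient.out_eq' o⟩⟩
    have hpos : 0 < Nat.card {i // (Quotient.mk'' i : PointOrbit N g) = o} := Nat.card_pos
    rw [pointStab]
    split_ifs with hfix
    · exact_mod_cast Nat.le_mul_of_pos_right m hpos
    · rw [Nat.cast_one, one_mul]
      have hperiod : Function.minimalPeriod (g • ·) o.out = m := by
        have hd : Function.minimalPeriod (g • ·) o.out ∣ m :=
          MulAction.pow_smul_eq_iff_minimalPeriod_dvd.1 (hgm _)
        have hne : Function.minimalPeriod (g • ·) o.out ≠ 1 := fun h =>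
          hfix (Function.minimalPeriod_eq_one_iff_isFixedPt.1 h)
        rcases hm with rfl | ⟨hp, -, -⟩
        · exact absurd (Nat.dvd_one.1 hd) hne
        · exact ((Nat.dvd_prime hp).1 hd).resolve_left hne
      have hcard : Nat.card (MulAction.orbit (Subgroup.zpowers g) o.out) = m := by
        exact ((Nat.card_congr (MulAction.orbitZPowersEquiv g o.out)).trans
          (Nat.card_zmod _)).trans hperiod
      have hle' : Nat.card (MulAction.orbit (Subgroup.zpowers g) o.out) ≤
          Nat.card {i // (Quotient.mk'' i : PointOrbit N g) = o} :=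
        Nat.card_le_card_of_injective
          (fun x => ⟨x.1, (Quotient.sound' (MulAction.orbitRel_apply.2 x.2)).trans
            (Quotient.out_eq' o)⟩)
          fun a b h => Subtype.ext (congrArg (fun z : {i // _ = o} => z.1) h)
      rw [hcard] at hle'
      exact_mod_cast hle'
  obtain ⟨e, he⟩ := S.bijective_center hy (fun i => (Quotient.mk'' i : PointOrbit N g))
    Quotient.mk''_surjective (pointStab m) (m := (m : ℤ))
    (fun i => by
      change ordPoint τ₀ (conjEmbed ι i y) = m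
      rw [conjEmbed_jElt_sub, hx₀]
      have h := ordPoint_jMero_sub τ₀
      rw [hord] at h
      exact WithTop.coe_injective h)
    hsame hdvd hle
    (fun s hs => sum_ord_zeros hy (deg_eq_one_FL ι) s hs)
  refine ⟨e, fun q => ?_⟩
  obtain ⟨h1, h2, h3⟩ := he q
  rw [h1]
  exact ⟨h2, h3⟩

end Point

/-- The elements of the modular function field are meromorphic at every cusp. -/
theorem conjEmbed_mem_cuspSubfield (q : SL(2, ℤ) ⧸ Gamma0 N) (x : FL L N) :
    conjEmbed ι q x ∈ cuspSubfield N :=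
  meroAtCusps_embed ι x q.out⁻¹

/-- The embedding attached to a coset, into the elements meromorphic at infinity. -/
def cuspEmbed (q : SL(2, ℤ) ⧸ Gamma0 N) : FL L N →+* cuspSubfield N :=
  (conjEmbed ι q).codRestrict (cuspSubfield N) (conjEmbed_mem_cuspSubfield ι q)

theorem coe_cuspEmbed (q : SL(2, ℤ) ⧸ Gamma0 N) (x : FL L N) :
    (cuspEmbed ι q x : MeroH) = conjEmbed ι q x := rfl

theorem ordInfty_cuspEmbed_inv (q : SL(2, ℤ) ⧸ Gamma0 N) :
    ordInfty (cuspEmbed ι q (jElt L N)⁻¹) = (N : ℤ) := by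
  obtain ⟨h, hord⟩ := exists_cuspSubfield_jMero N
  have e : cuspEmbed ι q (jElt L N) = ⟨jMero, h⟩ := Subtype.ext (conjEmbed_jElt ι q)
  have hne : (⟨jMero, h⟩ : cuspSubfield N) ≠ 0 := fun h0 => by
    have := congrArg Subtype.val (congrArg id h0)
    have h1 := eval₂_jMero_injective (a₁ := Polynomial.X) (a₂ := 0)
      (by rw [map_zero, Polynomial.coe_eval₂RingHom, Polynomial.eval₂_X]; exact this)
    exact Polynomial.X_ne_zero h1
  rw [map_inv₀, e, (isOrd_ordInfty N).map_inv hne, hord, neg_neg]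

/-- The embeddings over `j = ∞`. -/
def cuspSplitting :
    @Splitting L (FL L N) (cuspSubfield N) _ _ _ _ (SL(2, ℤ) ⧸ Gamma0 N)
      (Subgroup.fintypeQuotientOfFiniteIndex) (jElt L N)⁻¹ where
  ordM := ordInfty
  isOrd := isOrd_ordInfty N
  φ := cuspEmbed ι
  const_eq i j a := Subtype.ext (by
    rw [coe_cuspEmbed, coe_cuspEmbed, conjEmbed_algebraMap, conjEmbed_algebraMap])
  gen_eq i j := Subtype.ext (by
    rw [coe_cuspEmbed, coe_cuspEmbed, map_inv₀, map_inv₀, conjEmbed_jElt, conjEmbed_jElt])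
  ord_const i a := ordInfty_const (ι a) (by rw [coe_cuspEmbed, conjEmbed_algebraMap])
  pos i := by
    rw [ordInfty_cuspEmbed_inv]
    exact_mod_cast NeZero.pos N
  injective i j h := conjEmbed_injective ι (RingHom.ext fun x =>
    congrArg Subtype.val (RingHom.congr_fun h x))
  card_eq := by
    have : CharZero L := ι.charZero
    let : Fintype (SL(2, ℤ) ⧸ Gamma0 N) := Subgroup.fintypeQuotientOfFiniteIndex
    rw [adjoin_inv, finrank_eq_dedekindPsi ι, ← Cosets.card_coset N, Nat.card_eq_fintype_card]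

theorem cuspWidth_dvd (q : SL(2, ℤ) ⧸ Gamma0 N) : Cosets.cuspWidth q ∣ N :=
  (Nat.div_dvd_of_dvd (Cosets.toHermite q).g_dvd_d).trans
    (Dvd.intro_left _ (Cosets.toHermite q).mul_eq)

include ι in
/-- **Places at infinity.** -/
theorem exists_cusp_equiv [IsAlgClosed L] :
    ∃ e : Cosets.CuspOrbit N ≃ {v : Place L (FL L N) // 0 < v.ord (jElt L N)⁻¹},
      ∀ q : SL(2, ℤ) ⧸ Gamma0 N,
        (e (Quotient.mk'' q)).1.ord (jElt L N)⁻¹ = Cosets.cuspWidth q ∧
        ∀ f : FL L N, f ≠ 0 → ordInfty (cuspEmbed ι q f) =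
          (e (Quotient.mk'' q)).1.ord f * (N / Cosets.cuspWidth q : ℕ) := by
  classical
  let : Fintype (SL(2, ℤ) ⧸ Gamma0 N) := Subgroup.fintypeQuotientOfFiniteIndex
  let : Fintype (Cosets.CuspOrbit N) := Fintype.ofFinite _
  have : CharZero L := ι.charZero
  have := isFunctionField_FL (N := N) ι
  let S : Splitting L (FL L N) (cuspSubfield N) (SL(2, ℤ) ⧸ Gamma0 N) (jElt L N)⁻¹ :=
    cuspSplitting (N := N) ι
  have hy : Transcendental L (jElt L N)⁻¹ := fun h =>
    transcendental_jElt (N := N) ι (by simpa using h.inv)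
  have : FiniteDimensional L⟮(jElt L N)⁻¹⟯ (FL L N) := by
    rw [adjoin_inv]
    exact (finite_finrank_le ι).1
  have hsame : ∀ i j : SL(2, ℤ) ⧸ Gamma0 N,
      (Quotient.mk'' i : Cosets.CuspOrbit N) = Quotient.mk'' j →
      ∀ f, S.ordM (S.φ i f) = S.ordM (S.φ j f) := by
    intro i j hij f
    obtain ⟨⟨γ, hγ⟩, rfl⟩ := MulAction.orbitRel_apply.1 (Quotient.eq''.1 hij)
    obtain ⟨k, rfl⟩ := Subgroup.mem_zpowers_iff.1 hγ
    refine ordInfty_slComp_T_zpow (-k) ?_
    change conjEmbed ι (ModularGroup.T ^ k • j) f = _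
    rw [conjEmbed_smul, zpow_neg]
    rfl
  obtain ⟨e, he⟩ := S.bijective_center hy (fun i => (Quotient.mk'' i : Cosets.CuspOrbit N))
    Quotient.mk''_surjective (fun o => N / Cosets.orbitWidth o) (m := (N : ℤ))
    (fun i => ordInfty_cuspEmbed_inv ι i) hsame
    (fun i f hf => by
      rw [Cosets.orbitWidth_mk]
      refine dvd_ordInfty (cuspWidth_dvd i) ((map_ne_zero _).2 hf) ?_
      have hfix : ModularGroup.T ^ (-(Cosets.cuspWidth i : ℤ)) • i = i :=
        (Cosets.T_zpow_smul_eq_self_iff _ i).2 (dvd_neg.2 dvd_rfl)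
      change slComp _ (conjEmbed ι i f) = conjEmbed ι i f
      conv_rhs => rw [← hfix, conjEmbed_smul, ← zpow_neg, neg_neg])
    (fun o => by
      obtain ⟨i, rfl⟩ := Quotient.mk''_surjective o
      have hle : Nat.card (MulAction.orbit (Subgroup.zpowers ModularGroup.T) i) ≤
          Nat.card {q // (Quotient.mk'' q : Cosets.CuspOrbit N) = Quotient.mk'' i} :=
        Nat.card_le_card_of_injective
          (fun x => ⟨x.1, Quotient.sound' (MulAction.orbitRel_apply.2 x.2)⟩)
          fun a b h => Subtype.ext (congrArg (fun z : {q // _ = Quotient.mk'' i} => z.1) h)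
      rw [Cosets.card_T_orbit] at hle
      rw [Cosets.orbitWidth_mk]
      calc (N : ℤ) = ((N / Cosets.cuspWidth i * Cosets.cuspWidth i : ℕ) : ℤ) := by
            rw [Nat.div_mul_cancel (cuspWidth_dvd i)]
        _ ≤ _ := by rw [Nat.cast_mul]; gcongr)
    (fun s hs => sum_ord_zeros hy (deg_eq_one_FL ι) s hs)
  refine ⟨e, fun q => ?_⟩
  obtain ⟨h1, h2, h3⟩ := he q
  rw [h1]
  rw [Cosets.orbitWidth_mk] at h2 h3
  refine ⟨?_, h3⟩
  have hpos : 0 < N / Cosets.cuspWidth q :=
    Nat.div_pos (Nat.le_of_dvd (NeZero.pos N) (cuspWidth_dvd q)) (Cosets.cuspWidth_pos q)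
  refine mul_left_cancel₀ (a := ((N / Cosets.cuspWidth q : ℕ) : ℤ)) (by exact_mod_cast hpos.ne') ?_
  rw [h2, ← Nat.cast_mul, Nat.div_mul_cancel (cuspWidth_dvd q)]

end Fermat.Agent.MFGenus
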