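import Fermat.Agent.MFGenus.Fundamental
import Fermat.Prelude.Def_AlgebraicCurve_CanonicalDivisor

/-!
# Residues and differentials at a place over `y = 0`

At a place over `y = 0` the residue field is the constant field, a uniformizer `t` generates the
differentials of the valuation ring, and `ord (dy) = ord y - 1`.
-/

set_option autoImplicit false

noncomputable section

namespace Fermat.Agent.MFGenus

open AlgebraicCurve IsDedekindDomain KaehlerDifferential TensorProduct
open scoped IntermediateField IntermediateField.algebraAdjoinAdjoin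

variable {K F : Type*} [Field K] [Field F] [Algebra K F] [CharZero K] {y : F}
  (hy : Transcendental K y) [FiniteDimensional K⟮y⟯ F]

omit [CharZero K] in
theorem mem_iff_notMem_nonunits (v : Place K F) (f : F) :
    f ∈ v.toValuationSubring.nonunits ↔ f = 0 ∨ 0 < v.ord f := by
  rcases eq_or_ne f 0 with rfl | hf
  · simp
  rw [ValuationSubring.mem_nonunits_iff_or, mem_iff_ord_nonneg v (inv_ne_zero hf), v.ord_inv]
  simp only [hf, false_or]
  omega

include hy in
/-- At a place over `y = 0` every regular function is congruent to a constant. -/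
theorem exists_const_sub_mem_nonunits [IsAlgClosed K] (v : Place K F) (hv : 0 < v.ord y) {f : F}
    (hf : f ∈ v.toValuationSubring) :
    ∃ c : K, f - algebraMap K F c ∈ v.toValuationSubring.nonunits := by
  classical
  have := isDedekindDomain_intY hy
  have := isFractionRing_intY (K := K) (y := y)
  have hy0 : y ≠ 0 := fun h => by simp [h] at hv
  obtain ⟨w, hw, hwy⟩ := exists_placeOfPrime_of_valuationSubring v.toValuationSubring
    v.algebraMap_mem' ((mem_iff_notMem_nonunits v y).2 (Or.inr hv)) hy0
  have hwv : placeOfPrime w = v := Place.ext hw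
  let κ : K →+* IntY K y :=
    (algebraMap (PolyY K y) (IntY K y)).comp (algebraMap K (PolyY K y))
  have hκ : ∀ a, ((κ a : IntY K y) : F) = algebraMap K F a := fun a => rfl
  have hmemv : ∀ r : IntY K y, r ∈ w.asIdeal → (r : F) ∈ v.toValuationSubring.nonunits := by
    intro r hr
    rcases eq_or_ne r 0 with rfl | hr0
    · exact (mem_iff_notMem_nonunits v _).2 (Or.inl rfl)
    refine (mem_iff_notMem_nonunits v _).2 (Or.inr ?_)
    rw [← hwv]
    exact (ord_placeOfPrime_pos_iff w hr0).2 hr
  have hres : ∀ r : IntY K y, ∃ c : K, r - κ c ∈ w.asIdeal := by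
    intro r
    obtain ⟨p, hp, hpr⟩ := r.2
    let π : PolyY K y → K := fun a => (exists_eq_const_add_mul y a).choose
    let q := Ideal.Quotient.mk w.asIdeal
    have hπ : ∀ a, q (algebraMap _ _ a) = q (κ (π a)) := fun a => by
      obtain ⟨b, hb⟩ := (exists_eq_const_add_mul y a).choose_spec
      rw [Ideal.Quotient.eq]
      have h : algebraMap (PolyY K y) (IntY K y) a - κ (π a) =
          algebraMap (PolyY K y) (IntY K y) (genY K y) *
            algebraMap (PolyY K y) (IntY K y) b := by
        rw [← map_mul, show κ (π a) =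
          algebraMap (PolyY K y) (IntY K y) (algebraMap K _ (π a)) from rfl, ← map_sub]
        exact congrArg _ (by rw [sub_eq_iff_eq_add']; exact hb)
      rw [h]
      exact w.asIdeal.mul_mem_right _ hwy
    let P : Polynomial K := ∑ i ∈ Finset.range (p.natDegree + 1), Polynomial.monomial i
      (if i = p.natDegree then 1 else π (p.coeff i))
    have hPc : P.coeff p.natDegree = 1 := by
      simp [P, Polynomial.coeff_monomial]
    have hP0 : P ≠ 0 := fun h => by simp [h] at hPc
    have := w.isPrime
    have hroot : (P.map (q.comp κ)).eval (q r) = 0 := by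
      have h0 : p.eval₂ (algebraMap (PolyY K y) (IntY K y)) r = 0 := by
        apply Subtype.ext
        rw [← Subalgebra.coe_val]
        change (IntY K y).val.toRingHom _ = 0
        rw [Polynomial.hom_eval₂]
        exact hpr
      have h1 := congrArg q h0
      rw [Polynomial.hom_eval₂, map_zero, Polynomial.eval₂_eq_sum_range] at h1
      rw [← h1, Polynomial.eval_map, Polynomial.eval₂_finsetSum]
      refine Finset.sum_congr rfl fun i _ => ?_
      rw [Polynomial.eval₂_monomial]
      split_ifs with hi
      · subst hi; simp [hp.coeff_natDegree]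
      · exact congrArg (· * q r ^ i) (hπ (p.coeff i)).symm
    have hsplit := (IsAlgClosed.splits P).eq_prod_roots
    rw [hsplit, Polynomial.map_mul, Polynomial.eval_mul, Polynomial.map_C, Polynomial.eval_C,
      Polynomial.map_multiset_prod, Polynomial.eval_multiset_prod] at hroot
    rcases mul_eq_zero.1 hroot with h | h
    · exfalso
      have : IsUnit ((q.comp κ) P.leadingCoeff) :=
        (IsUnit.mk0 _ (Polynomial.leadingCoeff_ne_zero.2 hP0)).map _
      rw [h] at this
      exact not_isUnit_zero this
    · obtain ⟨g, hg, hg0⟩ := Multiset.mem_map.1 (Multiset.prod_eq_zero_iff.1 h)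
      obtain ⟨g', hg', rfl⟩ := Multiset.mem_map.1 hg
      obtain ⟨c, hc, rfl⟩ := Multiset.mem_map.1 hg'
      refine ⟨c, Ideal.Quotient.eq_zero_iff_mem.1 ?_⟩
      simpa [q] using hg0
  rw [← hwv, placeOfPrime, Place.ofHeightOneSpectrum_toValuationSubring,
    Valuation.mem_valuationSubring_iff] at hf
  obtain ⟨a, s, hs⟩ := w.exists_primeCompl_mul_eq_of_integer f hf
  obtain ⟨ca, hca⟩ := hres a
  obtain ⟨cs, hcs⟩ := hres s
  have hcs0 : cs ≠ 0 := by
    rintro rfl
    exact s.2 (by simpa using hcs)
  refine ⟨ca / cs, ?_⟩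
  have hs0 : ((s : IntY K y) : F) ≠ 0 := algebraMap_intY_ne_zero fun h => s.2 (by
    rw [h]; exact w.asIdeal.zero_mem)
  have hnum : a - κ (ca / cs) * s ∈ w.asIdeal := by
    have : a - κ (ca / cs) * s = (a - κ ca) - κ (ca / cs) * ((s : IntY K y) - κ cs) := by
      have : κ ca = κ (ca / cs) * κ cs := by rw [← map_mul, div_mul_cancel₀ _ hcs0]
      rw [this]; ring
    rw [this]
    exact w.asIdeal.sub_mem hca (w.asIdeal.mul_mem_left _ hcs)
  have heq : f * ((s : IntY K y) : F) = (a : F) := hs
  have hord : v.ord ((s : IntY K y) : F) = 0 := by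
    have h1 : ¬ 0 < v.ord ((s : IntY K y) : F) := fun h => s.2 (by
      rw [← hwv] at h
      exact (ord_placeOfPrime_pos_iff w fun h' => hs0 (congrArg Subtype.val h')).1 h)
    have h2 := ord_nonneg_of_mem v
      (isIntegral_mem_valuationSubring v (mem_of_ord_pos v hv) (s : IntY K y).2)
    omega
  have hn := (mem_iff_notMem_nonunits v _).1 (hmemv _ hnum)
  have hval : ((a - κ (ca / cs) * s : IntY K y) : F) =
      (f - algebraMap K F (ca / cs)) * ((s : IntY K y) : F) := by
    simp only [AddSubgroupClass.coe_sub, MulMemClass.coe_mul, hκ]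
    rw [sub_mul, heq]
  refine (mem_iff_notMem_nonunits v _).2 ?_
  rcases eq_or_ne (f - algebraMap K F (ca / cs)) 0 with h0 | h0
  · exact Or.inl h0
  right
  rw [hval, mul_eq_zero, v.ord_mul h0 hs0, hord, add_zero] at hn
  exact (hn.resolve_left (by tauto))

include hy in
/-- `dy` spans the differentials and is nonzero. -/
theorem span_D_eq_top_and_ne_zero :
    Submodule.span F {D K F y} = ⊤ ∧ D K F y ≠ 0 := by
  have : Algebra.FormallyEtale (PolyY K y) K⟮y⟯ :=
    Algebra.FormallyEtale.of_isLocalization (nonZeroDivisors (PolyY K y))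
  have : Algebra.FormallyEtale K⟮y⟯ F := Algebra.FormallyEtale.of_isSeparable K⟮y⟯ F
  have : Algebra.FormallyEtale (PolyY K y) F := Algebra.FormallyEtale.comp _ K⟮y⟯ F
  set e := tensorKaehlerEquivOfFormallyEtale K (PolyY K y) F
  set eA := Polynomial.algEquivOfTranscendental K y hy
  have heA : eA Polynomial.X = genY K y := Polynomial.algEquivOfTranscendental_apply_X K y hy
  have hD : ∀ a : PolyY K y, D K (PolyY K y) a =
      eA (Polynomial.derivative (eA.symm a)) • D K (PolyY K y) (genY K y) := by
    intro a
    obtain ⟨p, rfl⟩ := eA.surjective a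
    rw [eA.symm_apply_apply]
    have h1 : ∀ q : Polynomial K, eA q = Polynomial.aeval (genY K y) q := fun q => by
      rw [← heA, Polynomial.aeval_algHom_apply, Polynomial.aeval_X_left_apply]
    rw [h1, h1, (D K (PolyY K y)).map_aeval]
  refine ⟨?_, ?_⟩
  · refine eq_top_iff.2 ?_
    rintro ω -
    obtain ⟨x, rfl⟩ := e.surjective ω
    induction x using TensorProduct.induction_on with
    | zero => simp
    | add a b ha hb => rw [map_add]; exact add_mem ha hb
    | tmul t η =>
      rw [tensorKaehlerEquivOfFormallyEtale_apply, mapBaseChange_tmul]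
      refine Submodule.smul_mem _ _ ?_
      have hη : η ∈ Submodule.span (PolyY K y) (Set.range (D K (PolyY K y))) := by
        rw [span_range_derivation]; exact Submodule.mem_top
      induction hη using Submodule.span_induction with
      | mem z hz =>
        obtain ⟨a, rfl⟩ := hz
        rw [hD a, map_smul, map_D, ← IsScalarTower.algebraMap_smul F]
        exact Submodule.smul_mem _ _ (Submodule.subset_span rfl)
      | zero => simp
      | add a b _ _ ha hb => rw [map_add]; exact add_mem ha hb
      | smul a z _ hz =>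
        rw [map_smul, ← IsScalarTower.algebraMap_smul F]
        exact Submodule.smul_mem _ _ hz
  · intro h0
    let δ : Derivation K (PolyY K y) F :=
      Derivation.mk' ((Polynomial.aeval y).toLinearMap ∘ₗ Polynomial.derivative ∘ₗ
        eA.symm.toLinearMap) fun a b => by
        obtain ⟨p, rfl⟩ := eA.surjective a
        obtain ⟨q, rfl⟩ := eA.surjective b
        have hc : ∀ r : Polynomial K, ((eA r : PolyY K y) : F) = Polynomial.aeval y r := fun r => by
          rw [Polynomial.algEquivOfTranscendental_apply]
          exact (Polynomial.aeval_algHom_apply (PolyY K y).val _ r).symm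
        simp only [LinearMap.comp_apply, AlgEquiv.toLinearMap_apply, AlgHom.toLinearMap_apply,
          eA.symm_apply_apply, Polynomial.derivative_mul, map_add, map_mul,
          Algebra.smul_def, Subalgebra.algebraMap_def, hc]
        simp only [Algebra.algebraMap_self, RingHom.id_apply]
        ring
    let L := LinearMap.liftBaseChange F δ.liftKaehlerDifferential
    have h1 : L ((1 : F) ⊗ₜ[PolyY K y] D K (PolyY K y) (genY K y)) = 1 := by
      simp [L, δ, ← heA]
    have h2 : (1 : F) ⊗ₜ[PolyY K y] D K (PolyY K y) (genY K y) = 0 := by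
      apply e.injective
      rw [map_zero, tensorKaehlerEquivOfFormallyEtale_apply, mapBaseChange_tmul, one_smul, map_D]
      exact h0
    rw [h2, map_zero] at h1
    exact zero_ne_one h1

include hy in
/-- Differentials of functions regular at `v` are multiples of `dt` by regular functions. -/
theorem exists_D_eq_smul [IsAlgClosed K] (v : Place K F) (hv : 0 < v.ord y) {t : F}
    (ht : v.ord t = 1) {f : F} (hf : f ∈ v.toValuationSubring) :
    ∃ g ∈ v.toValuationSubring, D K F f = g • D K F t := by
  classical
  have := isDedekindDomain_intY hy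
  have := isFractionRing_intY (K := K) (y := y)
  have := moduleFinite_intY hy
  have hy0 : y ≠ 0 := fun h => by simp [h] at hv
  have ht0 : t ≠ 0 := fun h => by simp [h] at ht
  have hyO : y ∈ v.toValuationSubring := mem_of_ord_pos v hv
  obtain ⟨w, hw, -⟩ := exists_placeOfPrime_of_valuationSubring v.toValuationSubring
    v.algebraMap_mem' ((mem_iff_notMem_nonunits v y).2 (Or.inr hv)) hy0
  have hwv : placeOfPrime w = v := Place.ext hw
  obtain ⟨T, hT⟩ := (inferInstance : Module.Finite (PolyY K y) (IntY K y)).fg_top
  let O := v.toValuationSubring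
  have hsm : ∀ (a : O) (ω : Ω[F⁄K]), a • ω = (a : F) • ω := fun a ω =>
    (IsScalarTower.algebraMap_smul F a ω).symm
  let N : Submodule O Ω[F⁄K] :=
    Submodule.span O (↑(insert (D K F y) (T.image fun r : IntY K y => D K F (r : F))) : Set Ω[F⁄K])
  have hNfg : N.FG := Submodule.fg_span (Finset.finite_toSet _)
  have hsmul : ∀ (g : F), g ∈ O → ∀ ω ∈ N, g • ω ∈ N := fun g hg ω hω => by
    rw [show g • ω = (⟨g, hg⟩ : O) • ω from (hsm ⟨g, hg⟩ ω).symm]
    exact N.smul_mem _ hω
  have hDy : D K F y ∈ N := Submodule.subset_span (Finset.mem_insert_self _ _)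
  have hR : ∀ r : IntY K y, D K F (r : F) ∈ N := by
    intro r
    have hr : r ∈ Submodule.span (PolyY K y) (T : Set (IntY K y)) := hT ▸ Submodule.mem_top
    induction hr using Submodule.span_induction with
    | mem z hz =>
      exact Submodule.subset_span (Finset.mem_insert_of_mem (Finset.mem_image_of_mem _ hz))
    | zero => simp
    | add a b _ _ ha hb =>
      rw [AddMemClass.coe_add, map_add]; exact N.add_mem ha hb
    | smul a z _ hz =>
      have hp : ∀ b : PolyY K y, D K F (b : F) ∈ N := fun b => by
        obtain ⟨p, hp⟩ : ∃ p : Polynomial K, Polynomial.aeval y p = (b : F) := by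
          have h := b.2
          simp only [Algebra.adjoin_singleton_eq_range_aeval] at h
          exact h
        rw [← hp, (D K F).map_aeval]
        exact hsmul _ (polyY_subset_valuationSubring v hyO
          ⟨_, Polynomial.aeval_mem_adjoin_singleton K y⟩) _ hDy
      rw [show ((a • z : IntY K y) : F) = (a : F) * (z : F) from rfl, Derivation.leibniz]
      exact N.add_mem (hsmul _ (polyY_subset_valuationSubring v hyO a) _ hz)
        (hsmul _ (isIntegral_mem_valuationSubring v hyO z.2) _ (hp a))
  have hO : ∀ g : F, g ∈ O → D K F g ∈ N := by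
    intro g hg
    have hg' := hg
    simp only [O] at hg'
    rw [← hw, placeOfPrime, Place.ofHeightOneSpectrum_toValuationSubring,
      Valuation.mem_valuationSubring_iff] at hg'
    obtain ⟨a, s, hs⟩ := w.exists_primeCompl_mul_eq_of_integer g hg'
    have hs0 : ((s : IntY K y) : F) ≠ 0 := algebraMap_intY_ne_zero fun h => s.2 (by
      rw [h]; exact w.asIdeal.zero_mem)
    have hsinv : ((s : IntY K y) : F)⁻¹ ∈ O := by
      rw [mem_iff_ord_nonneg v (inv_ne_zero hs0), v.ord_inv]
      have h1 : ¬ 0 < v.ord ((s : IntY K y) : F) := fun h => s.2 (by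
        rw [← hwv] at h
        exact (ord_placeOfPrime_pos_iff w fun h' => hs0 (congrArg Subtype.val h')).1 h)
      omega
    have heq : g = (a : F) * ((s : IntY K y) : F)⁻¹ := by
      rw [eq_mul_inv_iff_mul_eq₀ hs0]; exact hs
    rw [heq, Derivation.leibniz, Derivation.leibniz_inv]
    refine N.add_mem (hsmul _ (isIntegral_mem_valuationSubring v hyO a.2) _ ?_)
      (hsmul _ hsinv _ (hR a))
    rw [neg_smul]
    exact N.neg_mem (hsmul _ (pow_mem hsinv 2) _ (hR _))
  have hle : N ≤ Submodule.span O {D K F t} ⊔ IsLocalRing.maximalIdeal O • N := by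
    have key : ∀ g : F, g ∈ O →
        D K F g ∈ Submodule.span O {D K F t} ⊔ IsLocalRing.maximalIdeal O • N := by
      intro g hg
      obtain ⟨c, hc⟩ := exists_const_sub_mem_nonunits hy v hv hg
      set u := (g - algebraMap K F c) / t
      have hu : u ∈ O := by
        rcases eq_or_ne u 0 with h | h
        · rw [h]; exact zero_mem O
        rw [mem_iff_ord_nonneg v h]
        rcases (mem_iff_notMem_nonunits v _).1 hc with h' | h'
        · exact absurd (by simp [u, h']) h
        · rw [(isOrd_ord v).map_div (fun h'' => h (by simp [u, h''])) ht0, ht]; omega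
      have hD : D K F g = u • D K F t + t • D K F u := by
        rw [← Derivation.leibniz, div_mul_cancel₀ _ ht0, map_sub, Derivation.map_algebraMap,
          sub_zero]
      rw [hD]
      refine Submodule.add_mem_sup ?_ ?_
      · rw [show u • D K F t = (⟨u, hu⟩ : O) • D K F t from (hsm ⟨u, hu⟩ _).symm]
        exact Submodule.smul_mem _ _ (Submodule.mem_span_singleton_self _)
      · rw [show t • D K F u = (⟨t, mem_of_ord_pos v (by omega)⟩ : O) • D K F u from
          (hsm ⟨t, _⟩ _).symm]
        refine Submodule.smul_mem_smul ?_ (hO u hu)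
        rw [← ValuationSubring.coe_mem_nonunits_iff]
        exact (mem_iff_notMem_nonunits v t).2 (Or.inr (by omega))
    refine Submodule.span_le.2 fun z hz => ?_
    rcases Finset.mem_insert.1 hz with rfl | hz
    · exact key y hyO
    · obtain ⟨r, -, rfl⟩ := Finset.mem_image.1 hz
      exact key _ (isIntegral_mem_valuationSubring v hyO r.2)
  have hmem := Submodule.le_of_le_smul_of_le_jacobson_bot hNfg
    (IsLocalRing.maximalIdeal_le_jacobson ⊥) hle (hO f hf)
  obtain ⟨g, hg⟩ := Submodule.mem_span_singleton.1 hmem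
  exact ⟨g, g.2, hg.symm.trans (hsm g _)⟩

include hy in
/-- At a place over `y = 0` the coordinate generates the differentials and
`ord (dy) = ord y - 1`. -/
theorem dCoordGenerates [IsAlgClosed K] (v : Place K F) (hv : 0 < v.ord y) :
    v.DCoordGenerates ∧ Nontrivial Ω[F⁄K] ∧ v.ordDifferential (D K F y) = v.ord y - 1 := by
  obtain ⟨hspan, hne⟩ := span_D_eq_top_and_ne_zero hy
  have hnt : Nontrivial Ω[F⁄K] := ⟨⟨_, _, hne⟩⟩
  set π := (IsDiscreteValuationRing.exists_irreducible v.toValuationSubring).choose
  have hπ : v.ord (π : F) = 1 := v.ord_coe_irreducible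
    (IsDiscreteValuationRing.exists_irreducible v.toValuationSubring).choose_spec
  set t : F := (π : F)
  have hcoord : v.dCoord = D K F t := rfl
  have ht0 : t ≠ 0 := fun h => by simp [h] at hπ
  obtain ⟨n, hn⟩ := Int.eq_ofNat_of_zero_le hv.le
  have hn0 : n ≠ 0 := by rintro rfl; omega
  set u := y / t ^ n
  have hy0 : y ≠ 0 := fun h => by simp [h] at hv
  have hu0 : u ≠ 0 := div_ne_zero hy0 (pow_ne_zero n ht0)
  have hu : v.ord u = 0 := by
    rw [(isOrd_ord v).map_div hy0 (pow_ne_zero n ht0), (isOrd_ord v).map_pow ht0, hπ, hn]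
    simp
  have huO : u ∈ v.toValuationSubring := (mem_iff_ord_nonneg v hu0).2 hu.ge
  obtain ⟨g, hg, hDu⟩ := exists_D_eq_smul hy v hv hπ huO
  obtain ⟨k, rfl⟩ := Nat.exists_eq_succ_of_ne_zero hn0
  set c := t ^ k * ((k + 1 : ℕ) * u + t * g) with hcdef
  have hDy : D K F y = c • D K F t := by
    have : y = t ^ (k + 1) * u := (mul_div_cancel₀ y (pow_ne_zero _ ht0)).symm
    rw [this, Derivation.leibniz, Derivation.leibniz_pow, hDu, Nat.add_sub_cancel,
      ← Nat.cast_smul_eq_nsmul F, smul_smul, smul_smul, smul_smul, ← add_smul, hcdef]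
    congr 1
    ring
  have hc0 : c ≠ 0 := fun h => hne (by rw [hDy, h, zero_smul])
  have hgen : v.DCoordGenerates := ⟨by
    refine eq_top_iff.2 ?_
    rw [← hspan, Submodule.span_le, Set.singleton_subset_iff, hDy, hcoord]
    exact Submodule.smul_mem _ _ (Submodule.mem_span_singleton_self _)⟩
  refine ⟨hgen, hnt, ?_⟩
  rw [Place.ordDifferential, v.differentialCoeff_unique (f := c) (by rw [hcoord, hDy]), hn, hcdef]
  have : CharZero F := charZero_of_algebra K F
  have hkF : ((k + 1 : ℕ) : F) ≠ 0 := by exact_mod_cast k.succ_ne_zero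
  have hku : v.ord (((k + 1 : ℕ) : F) * u) = 0 := by
    rw [v.ord_mul hkF hu0, hu, add_zero,
      show ((k + 1 : ℕ) : F) = algebraMap K F ((k + 1 : ℕ) : K) from (map_natCast _ _).symm,
      ord_algebraMap]
  have hsum0 : ((k + 1 : ℕ) : F) * u + t * g ≠ 0 := right_ne_zero_of_mul (hcdef ▸ hc0)
  have hsum : v.ord (((k + 1 : ℕ) : F) * u + t * g) = 0 := by
    rcases eq_or_ne g 0 with rfl | hg0
    · simpa using hku
    have htg : 1 ≤ v.ord (t * g) := by
      rw [v.ord_mul ht0 hg0, hπ]; have := ord_nonneg_of_mem v hg; omega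
    have h1 := (isOrd_ord v).map_add _ _ (mul_ne_zero hkF hu0) (mul_ne_zero ht0 hg0) hsum0
    have hsub : ((k + 1 : ℕ) : F) * u + t * g + -(t * g) = ((k + 1 : ℕ) : F) * u := by ring
    have h2 := (isOrd_ord v).map_add _ _ hsum0 (neg_ne_zero.2 (mul_ne_zero ht0 hg0))
      (by rw [hsub]; exact mul_ne_zero hkF hu0)
    have hneg : v.ord (-(t * g)) = v.ord (t * g) := by
      have h := (isOrd_ord v).map_mul (-1) (-1) (by norm_num) (by norm_num)
      rw [neg_one_mul, neg_neg, v.ord_one] at h
      have h' := (isOrd_ord v).map_mul (-1) (t * g) (by norm_num) (mul_ne_zero ht0 hg0)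
      rw [neg_one_mul] at h'
      omega
    rw [hsub, hneg, hku] at h2
    rw [hku] at h1
    omega
  rw [v.ord_mul (pow_ne_zero k ht0) hsum0, hsum, (isOrd_ord v).map_pow ht0, hπ]
  push_cast
  ring

end Fermat.Agent.MFGenus
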