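import Fermat.Agent.MFGenus.AnalyticPlaces
import Fermat.Agent.MFGenus.Differential

/-!
# All places of the modular function field

Every place lies over a value of `j` or over `∞`; over `j = 0`, `j = 1728` and the other values
they are the orbits of `S T`, of `S` and of `1` on `SL(2, ℤ) ⧸ Γ₀(N)`.
-/

set_option autoImplicit false

noncomputable section

open CongruenceSubgroup ModularCurve IntermediateField AlgebraicCurve
open UpperHalfPlane hiding I
open scoped MatrixGroups

namespace Fermat.Agent.MFGenus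

open Fermat.Agent.Kummer Fermat.Agent.Kummer.MeroH
open Fermat.Agent

theorem S_smul_I : ModularGroup.S • UpperHalfPlane.I = UpperHalfPlane.I :=
  UpperHalfPlane.ext (by rw [UpperHalfPlane.modular_S_smul]; simp)

theorem rho_cube : (LevelOne.rho : ℂ) ^ 3 = 1 := by
  linear_combination ((LevelOne.rho : ℂ) - 1) * LevelOne.rho_sq_add

theorem rho_ne_one : (LevelOne.rho : ℂ) ≠ 1 := fun h => by
  have := LevelOne.rho.im_pos
  rw [← UpperHalfPlane.coe_im, h] at this
  simp at this

theorem ST_smul_rho : (ModularGroup.S * ModularGroup.T) • LevelOne.rho = LevelOne.rho := by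
  refine UpperHalfPlane.ext ?_
  rw [mul_smul, UpperHalfPlane.modular_T_smul, UpperHalfPlane.modular_S_smul]
  simp only [coe_vadd, Complex.ofReal_one]
  have h := LevelOne.rho_sq_add
  refine inv_eq_of_mul_eq_one_right ?_
  linear_combination -h

theorem rot_S_inv : rot ModularGroup.S⁻¹ UpperHalfPlane.I = -1 := by
  simp [rot, Matrix.SpecialLinearGroup.coe_inv, Matrix.adjugate_fin_two, ModularGroup.coe_S]

theorem rot_ST_inv :
    rot (ModularGroup.S * ModularGroup.T)⁻¹ LevelOne.rho = (LevelOne.rho : ℂ) := by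
  have h : ((ModularGroup.S * ModularGroup.T)⁻¹ : SL(2, ℤ)).val = !![1, 1; -1, 0] := by
    simp [Matrix.SpecialLinearGroup.coe_inv, Matrix.adjugate_fin_two, ModularGroup.coe_S,
      ModularGroup.coe_T]
  have hne : (LevelOne.rho : ℂ) ≠ 0 := UpperHalfPlane.ne_zero _
  rw [rot, h]
  simp only [Matrix.of_apply, Matrix.cons_val', Matrix.cons_val_zero, Matrix.cons_val_one,
    Matrix.cons_val_fin_one, Int.cast_neg, Int.cast_one, Int.cast_zero, add_zero, neg_mul,
    one_mul, neg_sq]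
  rw [div_eq_iff (pow_ne_zero 2 hne)]
  linear_combination -rho_cube

variable {L : Type*} [Field L] [Algebra ℚ L] [IsAlgClosed L] {N : ℕ} [NeZero N] (ι : L →+* ℂ)

omit [IsAlgClosed L] in
include ι in
omit [NeZero N] in
theorem transcendental_jElt_sub (x₀ : L) :
    Transcendental L (jElt L N - algebraMap L (FL L N) x₀) := fun h => by
  apply transcendental_jElt (N := N) ι
  have := h.add (isAlgebraic_algebraMap (R := L) (A := FL L N) x₀)
  simpa using this

include ι in
/-- The places over `j = x₀`, `ι x₀ = jFun τ₀` and the points over it. -/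
theorem exists_places_over (x₀ : L) :
    ∃ (g : SL(2, ℤ)) (m : ℕ) (τ₀ : ℍ),
      ((ι x₀ = 0 ∧ g = ModularGroup.S * ModularGroup.T) ∨
        (ι x₀ = 1728 ∧ g = ModularGroup.S) ∨ (ι x₀ ≠ 0 ∧ ι x₀ ≠ 1728 ∧ g = 1)) ∧
      ι x₀ = LevelOne.jFun τ₀ ∧ 0 < m ∧
      ∃ e : PointOrbit N g ≃ {v : Place L (FL L N) // 0 < v.ord (jElt L N - algebraMap L _ x₀)},
        ∀ q : SL(2, ℤ) ⧸ Gamma0 N,
          (pointStab m (Quotient.mk'' q : PointOrbit N g) : ℤ) *
            (e (Quotient.mk'' q)).1.ord (jElt L N - algebraMap L _ x₀) = m ∧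
          ∀ f : FL L N, f ≠ 0 → ordPoint τ₀ (conjEmbed ι q f) =
            (e (Quotient.mk'' q)).1.ord f * pointStab m (Quotient.mk'' q : PointOrbit N g) := by
  by_cases h0 : ι x₀ = 0
  · refine ⟨_, 3, LevelOne.rho, Or.inl ⟨h0, rfl⟩, h0.trans LevelOne.jFun_rho.symm, by norm_num,
      exists_point_equiv ι (h0.trans LevelOne.jFun_rho.symm) ST_smul_rho
        (LevelOne.analyticOrderAt_jFun_of_E₄_eq_zero LevelOne.E₄_rho)
        (Or.inr ⟨Nat.prime_three, ?_, ?_⟩) Cosets.ST_pow_three_smul⟩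
    · rw [rot_ST_inv]; exact rho_ne_one
    · rw [rot_ST_inv]; exact rho_cube
  by_cases h1 : ι x₀ = 1728
  · refine ⟨_, 2, UpperHalfPlane.I, Or.inr (Or.inl ⟨h1, rfl⟩), h1.trans LevelOne.jFun_I.symm,
      by norm_num, exists_point_equiv ι (h1.trans LevelOne.jFun_I.symm) S_smul_I
        (LevelOne.analyticOrderAt_jFun_of_E₆_eq_zero LevelOne.E₆_I)
        (Or.inr ⟨Nat.prime_two, ?_, ?_⟩) Cosets.S_sq_smul⟩
    · rw [rot_S_inv]; norm_num
    · rw [rot_S_inv]; norm_num
  obtain ⟨τ, hτ⟩ := LevelOne.jFun_surjective (ι x₀)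
  refine ⟨1, 1, τ, Or.inr (Or.inr ⟨h0, h1, rfl⟩), hτ.symm, one_pos,
    exists_point_equiv ι hτ.symm (one_smul _ τ) ?_ (Or.inl rfl) fun q => by simp⟩
  rw [Nat.cast_one]
  exact LevelOne.analyticOrderAt_jFun_sub
    (fun h => h0 (hτ ▸ LevelOne.jFun_eq_zero_iff.2 h))
    (fun h => h1 (hτ ▸ LevelOne.jFun_eq_1728_iff.2 h))

include ι in
/-- A place lies over a finite value of `j` or over `∞`. -/
theorem exists_value_or_infty (v : Place L (FL L N)) :
    (∃ x₀ : L, 0 < v.ord (jElt L N - algebraMap L (FL L N) x₀)) ∨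
      0 < v.ord (jElt L N)⁻¹ := by
  rcases lt_or_ge (v.ord (jElt L N)) 0 with h | h
  · right; rw [v.ord_inv]; omega
  left
  have := isFunctionField_FL (N := N) ι
  have : CharZero L := ι.charZero
  obtain ⟨t, ht⟩ := exists_ord_eq_one v
  have htr : Transcendental L t := FF.transcendental_of_ord_ne_zero v (by omega)
  have := FF.finite_adjoin_simple htr
  have hj0 : jElt L N ≠ 0 := fun h0 =>
    transcendental_jElt (N := N) ι (h0 ▸ isAlgebraic_zero)
  obtain ⟨c, hc⟩ := exists_const_sub_mem_nonunits htr v (by omega)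
    ((mem_iff_ord_nonneg v hj0).2 h)
  refine ⟨c, ((mem_iff_notMem_nonunits v _).1 hc).resolve_left fun h0 => ?_⟩
  exact transcendental_jElt_sub (N := N) ι c (h0 ▸ isAlgebraic_zero)

include ι in
/-- **Every place is the image of a point of `ℍ` or of a cusp.** -/
theorem exists_tau_or_cusp (v : Place L (FL L N)) :
    (∃ (τ : ℍ) (h : ℕ), 0 < h ∧ ∀ f : FL L N, f ≠ 0 →
        ordPoint τ (embed ι N f) = h * v.ord f) ∨
      ∃ (q : SL(2, ℤ) ⧸ Gamma0 N), ∀ f : FL L N, f ≠ 0 →
        ordInfty (cuspEmbed ι q f) = (N / Cosets.cuspWidth q : ℕ) * v.ord f := by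
  rcases exists_value_or_infty ι v with ⟨x₀, hx⟩ | hx
  · left
    obtain ⟨g, m, τ₀, -, -, hm, e, he⟩ := exists_places_over (N := N) ι x₀
    obtain ⟨o, ho⟩ := e.surjective ⟨v, hx⟩
    obtain ⟨q, rfl⟩ := Quotient.mk''_surjective o
    refine ⟨q.out⁻¹ • τ₀, pointStab m (Quotient.mk'' q : PointOrbit N g), ?_, fun f hf => ?_⟩
    · rw [pointStab]; split_ifs <;> omega
    · have h := (he q).2 f hf
      rw [ho, conjEmbed, RingHom.comp_apply, ordPoint_slComp] at h
      rw [h, mul_comm]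
  · right
    obtain ⟨e, he⟩ := exists_cusp_equiv (N := N) ι
    obtain ⟨o, ho⟩ := e.surjective ⟨v, hx⟩
    obtain ⟨q, rfl⟩ := Quotient.mk''_surjective o
    exact ⟨q, fun f hf => by rw [(he q).2 f hf, ho, mul_comm]⟩

end Fermat.Agent.MFGenus
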