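import Fermat.Agent.MFGenus.PlaceBasic

/-!
# Places over a zero of a nonconstant function

For `K` algebraically closed of characteristic zero, `F/K` a field and `y : F` transcendental with
`F` finite over `K(y)`: the places where `y` vanishes are finitely many, have degree one, and the
orders of `y` at them add up to `[F : K(y)]`.
-/

set_option autoImplicit false

noncomputable section

namespace Fermat.Agent.MFGenus

open AlgebraicCurve IsDedekindDomain IsLocalRing WithZero
open scoped IntermediateField IntermediateField.algebraAdjoinAdjoin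

variable {K F : Type*} [Field K] [Field F] [Algebra K F]

/-- The polynomial ring `K[y]` inside `F`. -/
abbrev PolyY (K : Type*) {F : Type*} [Field K] [Field F] [Algebra K F] (y : F) : Subalgebra K F :=
  Algebra.adjoin K {y}

/-- `y` as an element of `K[y]`. -/
def genY (K : Type*) {F : Type*} [Field K] [Field F] [Algebra K F] (y : F) : PolyY K y :=
  ⟨y, Algebra.self_mem_adjoin_singleton K y⟩

/-- The integral closure of `K[y]` in `F`. -/
abbrev IntY (K : Type*) {F : Type*} [Field K] [Field F] [Algebra K F] (y : F) :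
    Subalgebra (PolyY K y) F :=
  integralClosure (PolyY K y) F

theorem isPrincipalIdealRing_polyY {y : F} (hy : Transcendental K y) :
    IsPrincipalIdealRing (PolyY K y) :=
  IsPrincipalIdealRing.of_surjective (Polynomial.algEquivOfTranscendental K y hy).toRingEquiv
    (Polynomial.algEquivOfTranscendental K y hy).surjective

theorem exists_eq_const_add_mul (y : F) (a : PolyY K y) :
    ∃ (c : K) (b : PolyY K y), a = algebraMap K _ c + genY K y * b := by
  obtain ⟨p, hp⟩ : ∃ p : Polynomial K, Polynomial.aeval y p = (a : F) := by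
    have h := a.2
    simp only [Algebra.adjoin_singleton_eq_range_aeval] at h
    exact h
  refine ⟨p.coeff 0, ⟨Polynomial.aeval y p.divX, Polynomial.aeval_mem_adjoin_singleton K y⟩, ?_⟩
  apply Subtype.ext
  have h := congrArg (Polynomial.aeval y) (Polynomial.X_mul_divX_add p)
  simp only [map_add, map_mul, Polynomial.aeval_X, Polynomial.aeval_C] at h
  simp [genY, ← hp]
  rw [add_comm, h]

theorem polyY_subset_valuationSubring {y : F} (v : Place K F) (hv : y ∈ v.toValuationSubring)
    (a : PolyY K y) : (a : F) ∈ v.toValuationSubring := by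
  have h : PolyY K y ≤
      ({ v.toValuationSubring.toSubring with algebraMap_mem' := v.algebraMap_mem' } :
        Subalgebra K F) :=
    Algebra.adjoin_le (Set.singleton_subset_iff.2 hv)
  exact h a.2

theorem isIntegral_mem_valuationSubring {y : F} (v : Place K F)
    (hv : y ∈ v.toValuationSubring) {f : F} (hf : IsIntegral (PolyY K y) f) :
    f ∈ v.toValuationSubring := by
  let g : PolyY K y →+* v.toValuationSubring :=
    (PolyY K y).val.toRingHom.codRestrict _ (polyY_subset_valuationSubring v hv)
  obtain ⟨p, hp, hpf⟩ := hf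
  have h : IsIntegral v.toValuationSubring f := by
    refine ⟨p.map g, hp.map g, ?_⟩
    rw [Polynomial.eval₂_map]
    exact hpf
  obtain ⟨z, hz⟩ := IsIntegrallyClosed.isIntegral_iff.1 h
  rw [← hz]
  exact z.2

section Finite

variable [IsAlgClosed K] [CharZero K] {y : F}

theorem charZero_of_algebra (K F : Type*) [Field K] [Field F] [Algebra K F] [CharZero K] :
    CharZero F :=
  charZero_of_injective_algebraMap (algebraMap K F).injective

variable (hy : Transcendental K y) [FiniteDimensional K⟮y⟯ F]

include hy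

omit [IsAlgClosed K] hy in
theorem isSeparable_overY : Algebra.IsSeparable K⟮y⟯ F := by
  have : CharZero K⟮y⟯ := charZero_of_algebra K K⟮y⟯
  infer_instance

omit [IsAlgClosed K] in
theorem isDedekindDomain_intY : IsDedekindDomain (IntY K y) := by
  have := isPrincipalIdealRing_polyY hy
  have := isSeparable_overY (K := K) (F := F) (y := y)
  exact integralClosure.isDedekindDomain (PolyY K y) K⟮y⟯ F

omit [IsAlgClosed K] in
theorem moduleFinite_intY : Module.Finite (PolyY K y) (IntY K y) := by
  have := isPrincipalIdealRing_polyY hy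
  have := isSeparable_overY (K := K) (F := F) (y := y)
  exact IsIntegralClosure.finite (PolyY K y) K⟮y⟯ F (IntY K y)

omit [IsAlgClosed K] [CharZero K] hy in
theorem isFractionRing_intY : IsFractionRing (IntY K y) F :=
  integralClosure.isFractionRing_of_finite_extension K⟮y⟯ F

omit [IsAlgClosed K] [CharZero K] hy [FiniteDimensional K⟮y⟯ F] in
theorem algebraMap_intY_ne_zero {r : IntY K y} (hr : r ≠ 0) : (r : F) ≠ 0 := by
  simpa using hr

/-- The place of a height one prime of the integral closure of `K[y]`. -/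
def placeOfPrime [IsDedekindDomain (IntY K y)] [IsFractionRing (IntY K y) F]
    (w : HeightOneSpectrum (IntY K y)) : Place K F :=
  Place.ofHeightOneSpectrum w

omit [IsAlgClosed K] [CharZero K] hy [FiniteDimensional K⟮y⟯ F] in
theorem ord_placeOfPrime [IsDedekindDomain (IntY K y)] [IsFractionRing (IntY K y) F]
    (w : HeightOneSpectrum (IntY K y)) {f : F} (hf : f ≠ 0) :
    (placeOfPrime w).ord f = -WithZero.log (w.valuation F f) := by
  set o : F → ℤ := fun f => -WithZero.log (w.valuation F f) with ho
  have hne : ∀ {g : F}, g ≠ 0 → w.valuation F g ≠ 0 := fun hg => (Valuation.ne_zero_iff _).mpr hg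
  have hord : IsOrd o := by
    refine ⟨fun f g hf hg => ?_, fun f g hf hg hfg => ?_⟩
    · simp only [ho, map_mul]; rw [WithZero.log_mul (hne hf) (hne hg)]; ring
    · have h := (w.valuation F).map_add f g
      rw [← WithZero.exp_log (hne hf), ← WithZero.exp_log (hne hg), ← WithZero.exp_log (hne hfg),
        le_max_iff, exp_le_exp, exp_le_exp] at h
      simp only [ho]
      omega
  have hiff : ∀ g : F, g ≠ 0 → (g ∈ (placeOfPrime w).toValuationSubring ↔ 0 ≤ o g) := by
    intro g hg
    rw [placeOfPrime, Place.ofHeightOneSpectrum_toValuationSubring,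
      Valuation.mem_valuationSubring_iff]
    simp only [ho]
    rw [neg_nonneg, WithZero.log_le_iff_le_exp (hne hg), exp_zero]
  obtain ⟨π, hπ0, hπ⟩ := exists_ord_eq_one (placeOfPrime w)
  have key := fun (g : F) (hg : g ≠ 0) => isOrd_eq_mul_ord (placeOfPrime w) hord
    (fun g hg h0 => (hiff g h0).1 hg) hπ0 hπ hg
  obtain ⟨t, ht⟩ := w.valuation_exists_uniformizer F
  have ht0 : t ≠ 0 := by
    rintro rfl
    rw [map_zero] at ht
    exact exp_ne_zero ht.symm
  have h1 : o t = 1 := by simp [ho, ht]
  have hc : o π = 1 := by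
    have h2 : 0 ≤ o π := (hiff π hπ0).1 ((mem_iff_ord_nonneg _ hπ0).2 (by omega))
    have h3 := key t ht0
    rw [h1] at h3
    rcases Int.eq_one_or_neg_one_of_mul_eq_one (show o π * (placeOfPrime w).ord t = 1 by
      rw [mul_comm]; exact h3.symm) with h | h <;> omega
  have := key f hf
  rw [hc, mul_one] at this
  exact this.symm

omit [IsAlgClosed K] [CharZero K] hy [FiniteDimensional K⟮y⟯ F] in
theorem ord_placeOfPrime_pos_iff [IsDedekindDomain (IntY K y)] [IsFractionRing (IntY K y) F]
    (w : HeightOneSpectrum (IntY K y)) {r : IntY K y} (hr : r ≠ 0) :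
    0 < (placeOfPrime w).ord (r : F) ↔ r ∈ w.asIdeal := by
  have hr' : (r : F) ≠ 0 := algebraMap_intY_ne_zero hr
  have hne : w.valuation F (r : F) ≠ 0 := (Valuation.ne_zero_iff _).mpr hr'
  rw [ord_placeOfPrime w hr', neg_pos, WithZero.log_lt_iff_lt_exp hne, exp_zero]
  exact w.valuation_lt_one_iff_mem r

omit [IsAlgClosed K] [CharZero K] hy [FiniteDimensional K⟮y⟯ F] in
/-- A proper valuation ring containing the constants with `y` in its maximal ideal is the ring of a
place coming from a prime of the integral closure. -/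
theorem exists_placeOfPrime_of_valuationSubring [IsDedekindDomain (IntY K y)]
    [IsFractionRing (IntY K y) F] (A : ValuationSubring F) (hK : ∀ a : K, algebraMap K F a ∈ A)
    (hyA : y ∈ A.nonunits) (hy0 : y ≠ 0) :
    ∃ w : HeightOneSpectrum (IntY K y), (placeOfPrime w).toValuationSubring = A ∧
      algebraMap (PolyY K y) (IntY K y) (genY K y) ∈ w.asIdeal := by
  have hym : y ∈ A := A.nonunits_subset hyA
  have hP : ∀ a : PolyY K y, (a : F) ∈ A := fun a => by
    have h : PolyY K y ≤ ({ A.toSubring with algebraMap_mem' := hK } : Subalgebra K F) :=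
      Algebra.adjoin_le (Set.singleton_subset_iff.2 hym)
    exact h a.2
  have hR : ∀ r : IntY K y, (r : F) ∈ A := fun r => by
    let g : PolyY K y →+* A := (PolyY K y).val.toRingHom.codRestrict _ hP
    obtain ⟨p, hp, hpf⟩ := r.2
    have h : IsIntegral A (r : F) := by
      refine ⟨p.map g, hp.map g, ?_⟩
      rw [Polynomial.eval₂_map]
      exact hpf
    obtain ⟨z, hz⟩ := IsIntegrallyClosed.isIntegral_iff.1 h
    rw [← hz]
    exact z.2
  let g : IntY K y →+* A := (IntY K y).val.toRingHom.codRestrict _ hR
  let q : Ideal (IntY K y) := (IsLocalRing.maximalIdeal A).comap g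
  have hq : q.IsPrime := Ideal.comap_isPrime _ _
  have hmem : ∀ r : IntY K y, r ∈ q ↔ (r : F) ∈ A.nonunits := fun r => by
    rw [Ideal.mem_comap, ← ValuationSubring.coe_mem_nonunits_iff]
    rfl
  set Y := algebraMap (PolyY K y) (IntY K y) (genY K y)
  have hY0 : Y ≠ 0 := fun h => hy0 (congrArg Subtype.val h)
  have hYq : Y ∈ q := (hmem Y).2 hyA
  let w : HeightOneSpectrum (IntY K y) := ⟨q, hq, fun h => hY0 (by simpa [h] using hYq)⟩
  refine ⟨w, ?_, hYq⟩
  have hle : (placeOfPrime w).toValuationSubring ≤ A := by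
    intro f hf
    rw [placeOfPrime, Place.ofHeightOneSpectrum_toValuationSubring,
      Valuation.mem_valuationSubring_iff] at hf
    obtain ⟨a, s, hs⟩ := w.exists_primeCompl_mul_eq_of_integer f hf
    have hsA : ((s : IntY K y) : F) ∉ A.nonunits := fun h => s.2 ((hmem s).2 h)
    rw [ValuationSubring.mem_nonunits_iff_or, not_or, not_not] at hsA
    have : f = (a : F) * ((s : IntY K y) : F)⁻¹ := by
      rw [eq_mul_inv_iff_mul_eq₀ hsA.1]
      exact hs
    rw [this]
    exact mul_mem (hR a) hsA.2
  refine ValuationSubring.eq_of_le_of_ne_top _ hle ?_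
  intro htop
  rw [htop, ValuationSubring.mem_nonunits_iff_or] at hyA
  exact hyA.elim hy0 fun h => h (ValuationSubring.mem_top _)

omit [IsAlgClosed K] [CharZero K] hy [FiniteDimensional K⟮y⟯ F] in
/-- An element integral over `K[y]` which vanishes at a place over `y = 0` and at no other of a
given finite set of such places. -/
theorem exists_integral_separating [IsDedekindDomain (IntY K y)] [IsFractionRing (IntY K y) F]
    (w : HeightOneSpectrum (IntY K y)) (s : Finset (HeightOneSpectrum (IntY K y))) (hw : w ∉ s) :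
    ∃ r : IntY K y, r ∈ w.asIdeal ∧ r ≠ 0 ∧ ∀ u ∈ s, r ∉ u.asIdeal := by
  classical
  obtain ⟨r, hr, hr'⟩ : ∃ r, r ∈ w.asIdeal ∧ ∀ u ∈ s, r ∉ u.asIdeal := by
    by_contra h
    push Not at h
    have hsub : (w.asIdeal : Set (IntY K y)) ⊆
        ⋃ u ∈ (↑s : Set (HeightOneSpectrum (IntY K y))), ↑u.asIdeal := fun r hr => by
      obtain ⟨u, hu, hru⟩ := h r hr
      exact Set.mem_iUnion₂.2 ⟨u, hu, hru⟩
    obtain ⟨u, hu, hle⟩ :=
      (Ideal.subset_union_prime w w fun u _ _ _ => u.isPrime).1 hsub
    exact hw (HeightOneSpectrum.ext (w.isMaximal.eq_of_le u.isPrime.ne_top hle) ▸ hu)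
  rcases eq_or_ne r 0 with rfl | hr0
  · obtain ⟨x, hx, hx0⟩ := Submodule.exists_mem_ne_zero_of_ne_bot w.ne_bot
    refine ⟨x, hx, hx0, fun u hu => ?_⟩
    exact absurd (u.asIdeal.zero_mem) (hr' u hu)
  · exact ⟨r, hr, hr0, hr'⟩

omit [IsAlgClosed K] [CharZero K] in
/-- The norm of an element integral over `K[y]` which lies in a prime over `y` is divisible by
`y`. -/
theorem exists_norm_eq_mul [IsDedekindDomain (IntY K y)] [IsFractionRing (IntY K y) F]
    (w : HeightOneSpectrum (IntY K y))
    (hw : algebraMap (PolyY K y) (IntY K y) (genY K y) ∈ w.asIdeal)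
    {r : IntY K y} (hr : r ∈ w.asIdeal) :
    ∃ b : PolyY K y,
      Algebra.norm K⟮y⟯ (r : F) = algebraMap (PolyY K y) K⟮y⟯ (genY K y * b) := by
  have := isPrincipalIdealRing_polyY hy
  have hint : IsIntegral (PolyY K y) (r : F) := r.2
  have hint' : IsIntegral K⟮y⟯ (r : F) := hint.tower_top
  obtain ⟨d, b, hd⟩ := exists_eq_const_add_mul y ((minpoly (PolyY K y) (r : F)).coeff 0)
  have hd0 : d = 0 := by
    by_contra hne
    have hroot : Polynomial.aeval r (minpoly (PolyY K y) (r : F)) = 0 := by
      apply Subtype.ext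
      rw [← Subalgebra.coe_val, ← Polynomial.aeval_algHom_apply]
      simp
    have h1 : algebraMap (PolyY K y) (IntY K y) ((minpoly (PolyY K y) (r : F)).coeff 0) ∈
        w.asIdeal := by
      have h := congrArg (Polynomial.aeval r)
        (Polynomial.X_mul_divX_add (minpoly (PolyY K y) (r : F)))
      rw [hroot, map_add, map_mul, Polynomial.aeval_X, Polynomial.aeval_C] at h
      rw [eq_neg_of_add_eq_zero_right h]
      exact w.asIdeal.neg_mem (w.asIdeal.mul_mem_right _ hr)
    rw [hd, map_add, map_mul] at h1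
    have h2 := (w.asIdeal.add_mem_iff_left (w.asIdeal.mul_mem_right _ hw)).1 h1
    refine w.isPrime.ne_top (Ideal.eq_top_of_isUnit_mem _ h2 ?_)
    exact ((IsUnit.mk0 d hne).map (algebraMap K (PolyY K y))).map _
  rw [hd0, map_zero, zero_add] at hd
  have hmin := minpoly.isIntegrallyClosed_eq_field_fractions' K⟮y⟯ hint
  set k := Module.finrank K⟮y⟯⟮(r : F)⟯ F
  have hk : k ≠ 0 := Module.finrank_pos.ne'
  obtain ⟨k', hk'⟩ := Nat.exists_eq_succ_of_ne_zero hk
  refine ⟨(-1) ^ ((IntermediateField.adjoin.powerBasis hint').dim * k) * b *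
    (genY K y * b) ^ k', ?_⟩
  have hgen : (IntermediateField.adjoin.powerBasis hint').gen =
      IntermediateField.AdjoinSimple.gen K⟮y⟯ (r : F) := rfl
  rw [Algebra.norm_eq_norm_adjoin K⟮y⟯ (r : F), ← hgen,
    Algebra.PowerBasis.norm_gen_eq_coeff_zero_minpoly, hgen, IntermediateField.minpoly_gen, hmin,
    Polynomial.coeff_map, hd, show Module.finrank K⟮y⟯⟮(r : F)⟯ F = k from rfl, hk',
    Nat.succ_eq_add_one, mul_pow, ← pow_mul]
  simp only [map_mul, map_pow, map_neg, map_one]
  ring

end Finite

end Fermat.Agent.MFGenus
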