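import Fermat.Agent.FF.Kaehler
import Fermat.Agent.MFGenus.Classify
import Fermat.Agent.S20

/-!
# The genus of the modular function field

The divisor of `dj` has order `e - 1` at a place where `j - x₀` has order `e`, and `-e - 1` at a
pole of order `e`; counting places gives degree `2 g - 2`.
-/

set_option autoImplicit false
attribute [-instance] IsScalarTower.of_algHom

noncomputable section

open CongruenceSubgroup ModularCurve IntermediateField AlgebraicCurve KaehlerDifferential
open scoped MatrixGroups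

namespace Fermat.Agent.MFGenus

open Fermat.Agent

theorem ord_sub_const_unique {K F : Type*} [Field K] [Field F] [Algebra K F] (v : Place K F)
    {x : F} {a b : K} (ha : 0 < v.ord (x - algebraMap K F a))
    (hb : 0 < v.ord (x - algebraMap K F b)) : a = b := by
  by_contra hab
  have ha0 : x - algebraMap K F a ≠ 0 := fun h => by simp [h] at ha
  have hb0 : x - algebraMap K F b ≠ 0 := fun h => by simp [h] at hb
  have hd : (x - algebraMap K F a) + -(x - algebraMap K F b) = algebraMap K F (b - a) := by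
    rw [map_sub]; ring
  have hne : algebraMap K F (b - a) ≠ 0 := (map_ne_zero _).2 (sub_ne_zero.2 (Ne.symm hab))
  have h := (isOrd_ord v).map_add _ _ ha0 (neg_ne_zero.2 hb0) (hd ▸ hne)
  rw [hd, ord_algebraMap, FF.ord_neg] at h
  omega

theorem not_ord_sub_const_and_pole {K F : Type*} [Field K] [Field F] [Algebra K F]
    (v : Place K F) {x : F} {a : K} (ha : 0 < v.ord (x - algebraMap K F a)) :
    ¬ 0 < v.ord x⁻¹ := by
  have hx : x ∈ v.toValuationSubring := by
    simpa using add_mem (mem_of_ord_pos v ha) (v.algebraMap_mem' a)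
  have := ord_nonneg_of_mem v hx
  rw [v.ord_inv]
  omega

variable {L : Type*} [Field L] [Algebra ℚ L] [IsAlgClosed L] {N : ℕ} [NeZero N] (ι : L →+* ℂ)

include ι in
omit [IsAlgClosed L] in
theorem D_jElt_ne_zero : D L (FL L N) (jElt L N) ≠ 0 := by
  have := ι.charZero
  have := isFunctionField_FL (N := N) ι
  exact FF.D_ne_zero_of_transcendental (transcendental_jElt ι)

include ι in
theorem ordDifferential_D_jElt_of_zero (x₀ : L) (v : Place L (FL L N))
    (hv : 0 < v.ord (jElt L N - algebraMap L (FL L N) x₀)) :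
    v.ordDifferential (D L (FL L N) (jElt L N)) =
      v.ord (jElt L N - algebraMap L (FL L N) x₀) - 1 := by
  have := ι.charZero
  have := isFunctionField_FL (N := N) ι
  have hy := transcendental_jElt_sub (N := N) ι x₀
  have := FF.finite_adjoin_simple hy
  have h := (dCoordGenerates hy v hv).2.2
  rwa [map_sub, Derivation.map_algebraMap, sub_zero] at h

include ι in
theorem ordDifferential_D_jElt_of_pole (v : Place L (FL L N))
    (hv : 0 < v.ord (jElt L N)⁻¹) :
    v.ordDifferential (D L (FL L N) (jElt L N)) = -v.ord (jElt L N)⁻¹ - 1 := by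
  have := ι.charZero
  have := isFunctionField_FL (N := N) ι
  have hy : Transcendental L (jElt L N)⁻¹ := fun h =>
    transcendental_jElt (N := N) ι (by simpa using h.inv)
  have := FF.finite_adjoin_simple hy
  obtain ⟨hgen, hnt, h⟩ := dCoordGenerates hy v hv
  set u := (jElt L N)⁻¹
  have hj : jElt L N = u⁻¹ := (inv_inv _).symm
  have hu0 : u ≠ 0 := fun h0 => by simp [h0] at hv
  have hcoef : v.differentialCoeff (D L (FL L N) u) ≠ 0 := fun h0 =>
    FF.D_ne_zero_of_transcendental hy (by
      rw [← v.differentialCoeff_smul_dCoord (D L (FL L N) u), h0, zero_smul])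
  rw [hj, Derivation.leibniz_inv,
    v.ordDifferential_smul (neg_ne_zero.2 (pow_ne_zero 2 (inv_ne_zero hu0))) hcoef, h,
    FF.ord_neg, (isOrd_ord v).map_pow (inv_ne_zero hu0), v.ord_inv]
  push_cast
  ring

theorem card_pointOrbit_one : Nat.card (PointOrbit N 1) = dedekindPsi N := by
  rw [← Cosets.card_coset N]
  refine (Nat.card_congr (Equiv.ofBijective
    (fun q : SL(2, ℤ) ⧸ Gamma0 N => (Quotient.mk'' q : PointOrbit N 1))
    ⟨fun a b h => ?_, Quotient.mk''_surjective⟩)).symm
  obtain ⟨⟨γ, hγ⟩, rfl⟩ := MulAction.orbitRel_apply.1 (Quotient.eq''.1 h)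
  obtain ⟨k, rfl⟩ := Subgroup.mem_zpowers_iff.1 hγ
  change (1 : SL(2, ℤ)) ^ k • b = b
  rw [one_zpow, one_smul]

omit [IsAlgClosed L] in
include ι in
theorem finrank_adjoin_jElt_sub (x₀ : L) :
    Module.finrank L⟮jElt L N - algebraMap L (FL L N) x₀⟯ (FL L N) = dedekindPsi N := by
  have := ι.charZero
  rw [adjoin_sub_const, finrank_eq_dedekindPsi ι]

include ι in
theorem sum_ord_sub_one (x₀ : L) (s : Finset (Place L (FL L N)))
    (hs : ∀ v, v ∈ s ↔ 0 < v.ord (jElt L N - algebraMap L (FL L N) x₀)) :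
    ∑ v ∈ s, (v.ord (jElt L N - algebraMap L (FL L N) x₀) - 1) =
      (dedekindPsi N : ℤ) -
        Nat.card {v : Place L (FL L N) // 0 < v.ord (jElt L N - algebraMap L _ x₀)} := by
  have := isFunctionField_FL (N := N) ι
  rw [Finset.sum_sub_distrib,
    sum_ord_zeros (transcendental_jElt_sub ι x₀) (deg_eq_one_FL ι) s hs,
    finrank_adjoin_jElt_sub ι x₀, Finset.sum_const, nsmul_one, ← Nat.card_eq_finsetCard,
    Nat.card_congr (Equiv.subtypeEquivRight hs)]

include ι in
/-- Away from `j ∈ {0, 1728, ∞}` the places are unramified over the `j`-line. -/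
theorem ordDifferential_D_jElt_generic (x₀ : L) (h0 : ι x₀ ≠ 0) (h1 : ι x₀ ≠ 1728)
    (v : Place L (FL L N)) (hv : 0 < v.ord (jElt L N - algebraMap L (FL L N) x₀)) :
    v.ordDifferential (D L (FL L N) (jElt L N)) = 0 := by
  have := isFunctionField_FL (N := N) ι
  rw [ordDifferential_D_jElt_of_zero ι x₀ v hv]
  obtain ⟨g, m, τ₀, hg, -, -, e, -⟩ := exists_places_over (N := N) ι x₀
  obtain ⟨-, -, rfl⟩ := (hg.resolve_left fun h => h0 h.1).resolve_left fun h => h1 h.1
  set s := (FF.finite_setOf_ord_pos (K := L) (jElt L N - algebraMap L (FL L N) x₀)).toFinset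
  have hs : ∀ w, w ∈ s ↔ 0 < w.ord (jElt L N - algebraMap L (FL L N) x₀) := fun w => by
    simp [s]
  have hsum := sum_ord_sub_one ι x₀ s hs
  rw [← Nat.card_congr e, card_pointOrbit_one, sub_self,
    Finset.sum_eq_zero_iff_of_nonneg fun w hw => by have := (hs w).1 hw; omega] at hsum
  exact hsum v ((hs v).2 hv)

include ι in
/-- The degree of the canonical divisor of the modular function field. -/
theorem degree_canonical [HasCanonicalDivisor (K := L) (F := FL L N)] {ω : Ω[(FL L N)⁄L]}
    (hω : ω ≠ 0) :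
    (Divisor.degree (canonicalDivisorOf hω) : ℚ) = 2 * genusFormula N - 2 := by
  classical
  have := ι.charZero
  have := isFunctionField_FL (N := N) ι
  have : Nontrivial Ω[(FL L N)⁄L] := ⟨⟨ω, 0, hω⟩⟩
  have hD0 := D_jElt_ne_zero (N := N) ι
  set j := jElt L N
  obtain ⟨f, hf⟩ := Submodule.mem_span_singleton.1
    ((FF.span_D_eq_top_of_transcendental (transcendental_jElt (N := N) ι)).symm ▸
      Submodule.mem_top : ω ∈ Submodule.span (FL L N) {D L (FL L N) j})
  have hf0 : f ≠ 0 := by rintro rfl; exact hω (by rw [← hf, zero_smul])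
  have hsplit : canonicalDivisorOf hω = FF.divOf L f + canonicalDivisorOf hD0 := by
    refine Finsupp.ext fun v => ?_
    rw [Finsupp.add_apply, FF.divOf_apply, canonicalDivisorOf_apply, canonicalDivisorOf_apply,
      ← hf, v.ordDifferential_smul hf0 fun h0 => hD0 (by
        rw [← v.differentialCoeff_smul_dCoord (D L (FL L N) j), h0, zero_smul])]
  rw [hsplit, map_add, FF.degree_divOf, zero_add]
  set D₀ := canonicalDivisorOf hD0
  set sA := (FF.finite_setOf_ord_pos (K := L) (j - algebraMap L (FL L N) 0)).toFinset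
  set sB := (FF.finite_setOf_ord_pos (K := L) (j - algebraMap L (FL L N) 1728)).toFinset
  set sC := (FF.finite_setOf_ord_pos (K := L) j⁻¹).toFinset
  have hA : ∀ w, w ∈ sA ↔ 0 < w.ord (j - algebraMap L (FL L N) 0) := fun w => by simp [sA]
  have hB : ∀ w, w ∈ sB ↔ 0 < w.ord (j - algebraMap L (FL L N) 1728) := fun w => by simp [sB]
  have hC : ∀ w, w ∈ sC ↔ 0 < w.ord j⁻¹ := fun w => by simp [sC]
  have h01728 : (0 : L) ≠ 1728 := fun h => by
    have := congrArg ι h
    rw [map_zero, map_ofNat] at this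
    norm_num at this
  have hsub : D₀.support ⊆ sA ∪ sB ∪ sC := by
    intro v hv
    rw [Finsupp.mem_support_iff, canonicalDivisorOf_apply] at hv
    simp only [Finset.mem_union, hA, hB, hC]
    rcases exists_value_or_infty ι v with ⟨x₀, hx⟩ | hx
    · by_cases h0 : ι x₀ = 0
      · rw [← map_zero ι] at h0
        obtain rfl := ι.injective h0
        exact Or.inl (Or.inl hx)
      by_cases h1 : ι x₀ = 1728
      · rw [← map_ofNat ι 1728] at h1
        obtain rfl := ι.injective h1
        exact Or.inl (Or.inr hx)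
      exact absurd (ordDifferential_D_jElt_generic ι x₀ h0 h1 v hx) hv
    · exact Or.inr hx
  have hAB : Disjoint sA sB := Finset.disjoint_left.2 fun v ha hb =>
    h01728 (ord_sub_const_unique v ((hA v).1 ha) ((hB v).1 hb))
  have hABC : Disjoint (sA ∪ sB) sC := Finset.disjoint_left.2 fun v hab hc => by
    rcases Finset.mem_union.1 hab with h | h
    · exact not_ord_sub_const_and_pole v ((hA v).1 h) ((hC v).1 hc)
    · exact not_ord_sub_const_and_pole v ((hB v).1 h) ((hC v).1 hc)
  rw [FF.degree_eq_sum, Finset.sum_subset hsub fun v _ hv => by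
      rw [Finsupp.notMem_support_iff.1 hv, zero_mul],
    Finset.sum_union hABC, Finset.sum_union hAB]
  have hval : ∀ (x₀ : L) (s : Finset (Place L (FL L N))),
      (∀ w, w ∈ s ↔ 0 < w.ord (j - algebraMap L (FL L N) x₀)) →
      ∑ v ∈ s, D₀ v * (v.deg : ℤ) = ∑ v ∈ s, (v.ord (j - algebraMap L (FL L N) x₀) - 1) :=
    fun x₀ s hs => Finset.sum_congr rfl fun v hv => by
      rw [deg_eq_one_FL ι v, Nat.cast_one, mul_one, canonicalDivisorOf_apply,
        ordDifferential_D_jElt_of_zero ι x₀ v ((hs v).1 hv)]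
  obtain ⟨g₀, m₀, τa, hga, -, -, ea, -⟩ := exists_places_over (N := N) ι (0 : L)
  obtain ⟨g₁, m₁, τb, hgb, -, -, eb, -⟩ := exists_places_over (N := N) ι (1728 : L)
  obtain ⟨ec, -⟩ := exists_cusp_equiv (N := N) ι
  obtain rfl : g₀ = ModularGroup.S * ModularGroup.T := by
    rcases hga with ⟨-, h⟩ | ⟨h, -⟩ | ⟨h, -, -⟩
    · exact h
    · rw [map_zero] at h; norm_num at h
    · exact absurd (map_zero ι) h
  obtain rfl : g₁ = ModularGroup.S := by
    rcases hgb with ⟨h, -⟩ | ⟨-, h⟩ | ⟨-, h, -⟩
    · rw [map_ofNat] at h; norm_num at h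
    · exact h
    · exact absurd (map_ofNat ι 1728) h
  have hy : Transcendental L j⁻¹ := fun h =>
    transcendental_jElt (N := N) ι (by simpa [j] using h.inv)
  have hCsum : ∑ v ∈ sC, D₀ v * (v.deg : ℤ) =
      -(dedekindPsi N : ℤ) - Nat.card (Cosets.CuspOrbit N) := by
    rw [Finset.sum_congr rfl fun v hv => show D₀ v * (v.deg : ℤ) = -v.ord j⁻¹ - 1 by
      rw [deg_eq_one_FL ι v, Nat.cast_one, mul_one, canonicalDivisorOf_apply,
        ordDifferential_D_jElt_of_pole ι v ((hC v).1 hv)]]
    rw [Finset.sum_sub_distrib, Finset.sum_neg_distrib,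
      sum_ord_zeros hy (deg_eq_one_FL ι) sC hC, adjoin_inv, finrank_eq_dedekindPsi ι,
      Finset.sum_const, nsmul_one, ← Nat.card_eq_finsetCard,
      Nat.card_congr (Equiv.subtypeEquivRight hC), Nat.card_congr ec]
  rw [hval 0 sA hA, hval 1728 sB hB, sum_ord_sub_one ι 0 sA hA, sum_ord_sub_one ι 1728 sB hB,
    hCsum, ← Nat.card_congr ea, ← Nat.card_congr eb]
  have h := Cosets.euler_char_eq N
  rw [Cosets.card_coset] at h
  push_cast
  linarith

include ι in
/-- **The genus of the modular function field is given by the genus formula.** -/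
theorem genus_FL [HasCanonicalDivisor (K := L) (F := FL L N)] :
    (genus L (FL L N) : ℚ) = genusFormula N := by
  have hex : ∃ ω : Ω[(FL L N)⁄L], ω ≠ 0 := ⟨_, D_jElt_ne_zero ι⟩
  rw [genus, dif_pos hex]
  have h := degree_canonical ι hex.choose_spec
  have hn := S20.result N
  set n := Module.finrank ℂ (CuspForm (Gamma0 N) 2)
  rw [← hn] at h ⊢
  have hd : Divisor.degree (canonicalDivisorOf hex.choose_spec) = 2 * (n : ℤ) - 2 := by
    exact_mod_cast h
  rw [hd, Nat.cast_inj]
  omega

end Fermat.Agent.MFGenus
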